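/-
GATE-L / L8 (FG) (helper28): finite generation of integral closures over `R0[t]`, in the span form
consumed by `GL/Lattice/CechKummer.lean` (`cech_span`, `exists_section`).

`R0` a noetherian integrally closed domain with fraction field `L0` of characteristic zero,
`F ⊇ L0` a field, `t ∈ F` transcendental over `L0` with `[F : L0(t)] < ∞`.

* `polyAlg t` : the `R0[X]`-algebra structure `X ↦ t` on `F`.
* `isNoetherian_integralClosure_aeval` : the integral closure of `R0[t]` in `F` is a noetherian
  `R0[X]`-module (Mathlib `IsIntegralClosure.isNoetherian`; `Frac R0[X] → F` has range `⊇ L0(t)`).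
* `exists_span_of_isIntegralElem` : every subset `N ⊆ F` stable under `+`, `R0`-scalars and `t`,
  consisting of elements integral over `R0[t]`, satisfies `N ⊆ ∑_{k, i} R0 · t^k e i` for finitely
  many `e i ∈ N`.
* `exists_span_of_twist` : the same for `N = h⁻ᵃ · M` (sections of a line bundle): generators of `M`
  over `R0[h⁻¹]`.

Mathlib only.
-/
import Mathlib

set_option autoImplicit false

open Polynomial IntermediateField

namespace Fermat.Agent.GL.CechKummer

noncomputable section

variable {R0 L0 F : Type*} [CommRing R0] [IsDomain R0]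
  [Field L0] [Algebra R0 L0] [IsFractionRing R0 L0]
  [Field F] [Algebra L0 F] [Algebra R0 F] [IsScalarTower R0 L0 F]

/-- the `R0[X]`-algebra structure on `F` with `X ↦ t` -/
abbrev polyAlg (t : F) : Algebra R0[X] F := (Polynomial.aeval t : R0[X] →ₐ[R0] F).toRingHom.toAlgebra

omit [IsDomain R0] in
theorem aeval_injective (t : F) (ht : Transcendental L0 t) :
    Function.Injective (Polynomial.aeval t : R0[X] →ₐ[R0] F) := by
  rw [injective_iff_map_eq_zero]
  intro p hp
  have h1 : Polynomial.aeval t (p.map (algebraMap R0 L0)) = 0 := by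
    rw [Polynomial.aeval_map_algebraMap]; exact hp
  have h2 := (transcendental_iff.mp ht) _ h1
  exact (Polynomial.map_eq_zero_iff (IsFractionRing.injective R0 L0)).mp h2

omit [IsDomain R0] in
/-- a subset stable under `+`, `R0`-scalars and `t` is stable under `aeval t p` -/
theorem aeval_mul_mem (t : F) (N : Set F) (hadd : ∀ x ∈ N, ∀ y ∈ N, x + y ∈ N)
    (hsmul : ∀ (c : R0), ∀ x ∈ N, c • x ∈ N) (htN : ∀ x ∈ N, t * x ∈ N) (p : R0[X]) :
    ∀ x ∈ N, Polynomial.aeval t p * x ∈ N := by
  have hpow : ∀ n : ℕ, ∀ x ∈ N, t ^ n * x ∈ N := by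
    intro n
    induction n with
    | zero => intro x hx; simpa using hx
    | succ n ih => intro x hx; rw [pow_succ, mul_assoc]; exact ih _ (htN x hx)
  induction p using Polynomial.induction_on' with
  | add p q hp hq =>
    intro x hx
    rw [map_add, add_mul]
    exact hadd _ (hp x hx) _ (hq x hx)
  | monomial n a =>
    intro x hx
    rw [Polynomial.aeval_monomial, ← Algebra.smul_def, smul_mul_assoc]
    exact hsmul a _ (hpow n x hx)


variable [IsIntegrallyClosed R0] [IsNoetherianRing R0] [CharZero L0]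

theorem isNoetherian_integralClosure_aeval (t : F) (ht : Transcendental L0 t)
    [FiniteDimensional L0⟮t⟯ F] :
    letI := polyAlg (R0 := R0) t
    IsNoetherian R0[X] (integralClosure R0[X] F) := by
  let alg : Algebra R0[X] F := polyAlg (R0 := R0) t
  have hinj : Function.Injective (algebraMap R0[X] F) := aeval_injective (L0 := L0) t ht
  let K := FractionRing R0[X]
  let algK : Algebra K F := (IsFractionRing.lift hinj).toAlgebra
  have : IsScalarTower R0[X] K F :=
    IsScalarTower.of_algebraMap_eq (fun x => (IsFractionRing.lift_algebraMap hinj x).symm)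
  -- the range of `K → F` contains `L0⟮t⟯`
  have hL0 : ∀ l : L0, algebraMap L0 F l ∈ (algebraMap K F).fieldRange := by
    intro l
    obtain ⟨a, b, hb, rfl⟩ := IsFractionRing.div_surjective (A := R0) l
    have ha' : algebraMap L0 F (algebraMap R0 L0 a) = algebraMap K F (algebraMap R0[X] K (C a)) := by
      rw [← IsScalarTower.algebraMap_apply R0[X] K F, ← IsScalarTower.algebraMap_apply R0 L0 F]
      show _ = Polynomial.aeval t (C a)
      rw [Polynomial.aeval_C]
    have hb' : algebraMap L0 F (algebraMap R0 L0 b) = algebraMap K F (algebraMap R0[X] K (C b)) := by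
      rw [← IsScalarTower.algebraMap_apply R0[X] K F, ← IsScalarTower.algebraMap_apply R0 L0 F]
      show _ = Polynomial.aeval t (C b)
      rw [Polynomial.aeval_C]
    rw [map_div₀, ha', hb']
    exact div_mem ⟨_, rfl⟩ ⟨_, rfl⟩
  have ht' : t ∈ (algebraMap K F).fieldRange := by
    refine ⟨algebraMap R0[X] K X, ?_⟩
    rw [← IsScalarTower.algebraMap_apply R0[X] K F]
    show Polynomial.aeval t X = t
    rw [Polynomial.aeval_X]
  let E' : IntermediateField L0 F :=
    { (algebraMap K F).fieldRange with
      algebraMap_mem' := hL0 }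
  have hE : L0⟮t⟯ ≤ E' := by
    rw [IntermediateField.adjoin_simple_le_iff]
    exact ht'
  have : FiniteDimensional K F := by
    let b := Module.finBasis L0⟮t⟯ F
    have hsurj : Function.Surjective
        (fun v : Fin (Module.finrank L0⟮t⟯ F) → K => ∑ i, algebraMap K F (v i) * b i) := by
      intro x
      have hx := b.sum_repr x
      have hc : ∀ i, ∃ k : K, algebraMap K F k = ((b.repr x i : L0⟮t⟯) : F) := fun i =>
        hE (b.repr x i).2
      choose k hk using hc
      refine ⟨k, ?_⟩
      simp only [hk]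
      conv_rhs => rw [← hx]
      refine Finset.sum_congr rfl fun i _ => ?_
      rw [IntermediateField.smul_def]
      rfl
    let φ : (Fin (Module.finrank L0⟮t⟯ F) → K) →ₗ[K] F :=
      { toFun := fun v => ∑ i, algebraMap K F (v i) * b i
        map_add' := by
          intro v w
          simp only [Pi.add_apply, map_add, add_mul, Finset.sum_add_distrib]
        map_smul' := by
          intro c v
          simp only [Pi.smul_apply, smul_eq_mul, map_mul, RingHom.id_apply,
            Algebra.smul_def, mul_assoc]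
          rw [Finset.mul_sum] }
    exact Module.Finite.of_surjective φ hsurj
  have : CharZero R0 := by
    refine ⟨fun a b hab => ?_⟩
    have h1 : ((a : ℕ) : L0) = ((b : ℕ) : L0) := by
      have := congrArg (algebraMap R0 L0) hab
      simpa using this
    exact_mod_cast h1
  have : CharZero K := by
    have hinjK : Function.Injective (algebraMap R0[X] K) := IsFractionRing.injective _ _
    exact charZero_of_injective_algebraMap hinjK
  have : Algebra.IsSeparable K F := Algebra.IsAlgebraic.isSeparable_of_perfectField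
  exact IsIntegralClosure.isNoetherian R0[X] K F (integralClosure R0[X] F)


/-- **(FG).**  A subset `N ⊆ F` stable under `+`, `R0`-scalars and multiplication by `t`, all of
whose elements are integral over `R0[t]`, is generated over `R0[t]` by finitely many elements:
`N ⊆ ∑_{k,i} R0 · t^k e i`. -/
theorem exists_span_of_isIntegralElem (t : F) (ht : Transcendental L0 t)
    [FiniteDimensional L0⟮t⟯ F]
    (N : Set F) (hadd : ∀ x ∈ N, ∀ y ∈ N, x + y ∈ N) (h0 : (0 : F) ∈ N)
    (hsmul : ∀ (c : R0), ∀ x ∈ N, c • x ∈ N) (htN : ∀ x ∈ N, t * x ∈ N)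
    (hint : ∀ x ∈ N, (Polynomial.aeval t : R0[X] →ₐ[R0] F).toRingHom.IsIntegralElem x) :
    ∃ (n : ℕ) (e : Fin n → F), (∀ i, e i ∈ N) ∧
      ∀ x ∈ N, x ∈ Submodule.span R0 {y | ∃ (k : ℕ) (i : Fin n), y = t ^ k * e i} := by
  classical
  let alg : Algebra R0[X] F := polyAlg (R0 := R0) t
  have hnoeth : IsNoetherian R0[X] (integralClosure R0[X] F) :=
    isNoetherian_integralClosure_aeval (L0 := L0) t ht
  have hsm : ∀ (p : R0[X]) (x : F), p • x = Polynomial.aeval t p * x := fun p x => by
    rw [Algebra.smul_def]; rfl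
  let N' : Submodule R0[X] (integralClosure R0[X] F) :=
    { carrier := {c | (c : F) ∈ N}
      zero_mem' := h0
      add_mem' := fun {a b} ha hb => hadd _ ha _ hb
      smul_mem' := fun p c hc => by
        show ((p • c : integralClosure R0[X] F) : F) ∈ N
        have : ((p • c : integralClosure R0[X] F) : F) = p • (c : F) := rfl
        rw [this, hsm]
        exact aeval_mul_mem t N hadd hsmul htN p _ hc }
  obtain ⟨S, hS⟩ : N'.FG := IsNoetherian.noetherian N'
  let n := S.card
  let e : Fin n → F := fun i => ((S.equivFin.symm i : S) : integralClosure R0[X] F)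
  have hSN : ∀ c ∈ S, (c : F) ∈ N := fun c hc => by
    have : c ∈ N' := by rw [← hS]; exact Submodule.subset_span hc
    exact this
  refine ⟨n, e, fun i => hSN _ (S.equivFin.symm i).2, ?_⟩
  set T : Submodule R0 F :=
    Submodule.span R0 {y | ∃ (k : ℕ) (i : Fin n), y = t ^ k * e i} with hT
  have htT : ∀ y ∈ T, t * y ∈ T := by
    intro y hy
    have hle : T ≤ Submodule.comap (LinearMap.mulLeft R0 t) T := by
      rw [hT, Submodule.span_le]
      rintro y ⟨k, i, rfl⟩
      show t * (t ^ k * e i) ∈ T
      rw [← mul_assoc, ← pow_succ']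
      exact Submodule.subset_span ⟨k + 1, i, rfl⟩
    exact hle hy
  have hpT : ∀ (p : R0[X]), ∀ y ∈ T, Polynomial.aeval t p * y ∈ T :=
    fun p => aeval_mul_mem t (T : Set F) (fun x hx y hy => T.add_mem hx hy)
      (fun c x hx => T.smul_mem c hx) htT p
  have key : ∀ c ∈ Submodule.span R0[X] (S : Set (integralClosure R0[X] F)), (c : F) ∈ T := by
    intro c hc
    induction hc using Submodule.span_induction with
    | mem c hc =>
      have : (c : F) = t ^ 0 * e (S.equivFin ⟨c, hc⟩) := by
        simp [e]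
      rw [this]
      exact Submodule.subset_span ⟨0, _, rfl⟩
    | zero => exact T.zero_mem
    | add a b _ _ ha hb => exact T.add_mem ha hb
    | smul p a _ ha =>
      have : ((p • a : integralClosure R0[X] F) : F) = p • (a : F) := rfl
      rw [this, hsm]
      exact hpT p _ ha
  intro x hx
  have hxC : x ∈ integralClosure R0[X] F := hint x hx
  have : (⟨x, hxC⟩ : integralClosure R0[X] F) ∈ N' := hx
  rw [← hS] at this
  exact key _ this


/-- **(FG) for a twisted module.**  `M ⊆ F` stable under `+`, `R0`-scalars and `hinv`, such that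
`hinv ^ a0 * f` is integral over `R0[hinv]` for every `f ∈ M` (`M ⊆ hᵃ⁰ · B2`).  Then
`M ⊆ ∑_{k, j} R0 · hinv^k f j` for finitely many `f j ∈ M`. -/
theorem exists_span_of_twist (h hinv : F) (hh : h * hinv = 1) (ht : Transcendental L0 hinv)
    [FiniteDimensional L0⟮hinv⟯ F]
    (M : Set F) (hadd : ∀ x ∈ M, ∀ y ∈ M, x + y ∈ M) (h0 : (0 : F) ∈ M)
    (hsmul : ∀ (c : R0), ∀ x ∈ M, c • x ∈ M) (htM : ∀ x ∈ M, hinv * x ∈ M) (a0 : ℕ)
    (hint : ∀ x ∈ M,
      (Polynomial.aeval hinv : R0[X] →ₐ[R0] F).toRingHom.IsIntegralElem (hinv ^ a0 * x)) :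
    ∃ (n : ℕ) (f : Fin n → F), (∀ j, f j ∈ M) ∧
      ∀ y ∈ M, y ∈ Submodule.span R0 {y | ∃ (k : ℕ) (j : Fin n), y = hinv ^ k * f j} := by
  have hk : h ^ a0 * hinv ^ a0 = 1 := by rw [← mul_pow, hh, one_pow]
  obtain ⟨n, e, he, hspan⟩ := exists_span_of_isIntegralElem (R0 := R0) (L0 := L0) hinv ht
    {c | ∃ x ∈ M, c = hinv ^ a0 * x}
    (by
      rintro _ ⟨x, hx, rfl⟩ _ ⟨y, hy, rfl⟩
      exact ⟨x + y, hadd x hx y hy, by ring⟩)
    ⟨0, h0, by simp⟩
    (by
      rintro c _ ⟨x, hx, rfl⟩
      exact ⟨c • x, hsmul c x hx, by rw [mul_smul_comm]⟩)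
    (by
      rintro _ ⟨x, hx, rfl⟩
      exact ⟨hinv * x, htM x hx, by ring⟩)
    (by
      rintro _ ⟨x, hx, rfl⟩
      exact hint x hx)
  choose f hfM hf using he
  refine ⟨n, f, hfM, fun y hy => ?_⟩
  have h1 := hspan (hinv ^ a0 * y) ⟨y, hy, rfl⟩
  -- multiply back by `h ^ a0`
  have hle : Submodule.span R0 {y | ∃ (k : ℕ) (i : Fin n), y = hinv ^ k * e i} ≤
      Submodule.comap (LinearMap.mulLeft R0 (h ^ a0))
        (Submodule.span R0 {y | ∃ (k : ℕ) (j : Fin n), y = hinv ^ k * f j}) := by
    rw [Submodule.span_le]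
    rintro _ ⟨k, i, rfl⟩
    show h ^ a0 * (hinv ^ k * e i) ∈
      Submodule.span R0 {y | ∃ (k : ℕ) (j : Fin n), y = hinv ^ k * f j}
    have : h ^ a0 * (hinv ^ k * e i) = hinv ^ k * f i := by
      rw [hf i]
      calc h ^ a0 * (hinv ^ k * (hinv ^ a0 * f i)) = (h ^ a0 * hinv ^ a0) * (hinv ^ k * f i) := by
            ring
        _ = hinv ^ k * f i := by rw [hk, one_mul]
    rw [this]
    exact Submodule.subset_span ⟨k, i, rfl⟩
  have h2 := hle h1
  have h3 : h ^ a0 * (hinv ^ a0 * y) = y := by rw [← mul_assoc, hk, one_mul]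
  have h4 : h ^ a0 * (hinv ^ a0 * y) ∈
      Submodule.span R0 {y | ∃ (k : ℕ) (j : Fin n), y = hinv ^ k * f j} := h2
  rwa [h3] at h4

end

end Fermat.Agent.GL.CechKummer
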