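/-
GATE-L / L8 (LOC)-GLUE (helper35): producers of the `hloc` hypothesis of helper28's
`CechKummer.exists_section` / helper33's `CechKummerField.exists_root_of_loc`, pointwise in the
maximal ideal `𝔫` of `B2` and LOCALISATION-FREE (everything "up to a denominator `a ∉ 𝔫`").

Setting: `B` a commutative ring (functions on `U₁ ∩ U₂`, integral at all vertical valuations),
`B2 ⊆ B` a subring (functions on `U₂`), `𝔯` an ideal of `B` (the radical of `q B`), `𝔫` a prime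
(maximal) ideal of `B2`.  The conjunct of `hloc` at `𝔫` is

  `∃ g ∈ M, ∃ a b : B2, a ∉ 𝔫 ∧ b ∉ 𝔫 ∧ a * g - b ∈ 𝔯`.

* `loc_of_notMem` : `𝔫 ∌ q` (generic fibre): `g = 0`, `a = b = q`.
* `sub_mem_of_pow_mul` : `u ≡ 1 mod 𝔯` ⟹ `g ^ m ≡ g ^ m u mod 𝔯`.
* `loc_of_unibranch_local` / `loc_of_unibranch` : TYPE I / II points.  `𝔫` lies on ONE branch
  `rd : B → κ` (the other components miss it: `c · ker rd ⊆ 𝔯` for some `c ∉ 𝔫`) and the image of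
  `B2` in `κ` is `m`-root closed at `𝔫` (a normal point of the reduced fibre).  Then every `g` with
  `g ^ m ≡ w mod 𝔯`, `w ∈ B2 ∖ 𝔫` (a local generator of `M`), satisfies the conjunct.
* `loc_of_multibranch` : TYPE III points (crossing points).  `I ⊇ 𝔯` an ideal of `B` with
  `I ∩ B2 ⊆ 𝔫` (the functions vanishing at ALL branch points over `𝔫`), a conductor-type
  hypothesis `c₀ · I ^ N ⊆ B2 + 𝔯` with `c₀ ∉ 𝔫`, `m ∉ 𝔫`, and `g ≡ b₀ mod I` with `b₀ ∈ B2 ∖ 𝔫`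
  ("`ξ_x = 1`": all branch values of `g` agree).  Then the conjunct holds.  This is the unipotent
  root lemma (helper18 `UnipotentRoot`, helper60 `NilRoot`) carried out with denominators, so no
  localisation of `B`, no Jacobson radical, no units are needed.
* `loc_of_chars` : the same with `I = ⋂ ker χ i` for finitely or infinitely many "branch
  characters" `χ i : B →+* k` restricting to the SAME surjective character of `B2` with kernel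
  `𝔫`; the `ξ`-hypothesis reads `χ i g = χ j g`.

Mathlib only.
-/
import Mathlib

set_option autoImplicit false

namespace Fermat.Agent.GL.LocOfReg

variable {B : Type*} [CommRing B]

/-- **(LOC) off the special fibre.**  If `q ∈ 𝔯 ∩ B2` is not in `𝔫`, take `g = 0`. -/
theorem loc_of_notMem (B2 : Subring B) (M : AddSubgroup B) (𝔯 : Ideal B) (𝔫 : Ideal B2)
    {q : B2} (hq𝔯 : (q : B) ∈ 𝔯) (hq : q ∉ 𝔫) :
    ∃ g ∈ M, ∃ a b : B2, a ∉ 𝔫 ∧ b ∉ 𝔫 ∧ (a : B) * g - (b : B) ∈ 𝔯 :=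
  ⟨0, M.zero_mem, q, q, hq, hq, by simpa using hq𝔯⟩

/-- `u ≡ 1 mod 𝔯` ⟹ `g ^ m ≡ g ^ m u mod 𝔯`. -/
theorem sub_mem_of_pow_mul (𝔯 : Ideal B) {u : B} (hu : u - 1 ∈ 𝔯) (g : B) (m : ℕ) :
    g ^ m - g ^ m * u ∈ 𝔯 := by
  have : g ^ m - g ^ m * u = -(g ^ m * (u - 1)) := by ring
  rw [this]
  exact 𝔯.neg_mem (𝔯.mul_mem_left _ hu)

theorem mul_notMem {B2 : Subring B} {𝔫 : Ideal B2} [𝔫.IsPrime] {a b : B2} (ha : a ∉ 𝔫)
    (hb : b ∉ 𝔫) : a * b ∉ 𝔫 := fun h =>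
  (Ideal.IsPrime.mem_or_mem ‹_› h).elim ha hb

theorem pow_notMem {B2 : Subring B} {𝔫 : Ideal B2} [𝔫.IsPrime] {a : B2} (ha : a ∉ 𝔫) (n : ℕ) :
    a ^ n ∉ 𝔫 := fun h => ha (Ideal.IsPrime.mem_of_pow_mem ‹_› n h)

/-! ### One branch -/

/-- **(LOC) at a unibranch point, local form.**  `rd : B → κ` the reduction along the only
component through `𝔫` (`c · ker rd ⊆ 𝔯` with `c ∉ 𝔫`; `ker (rd|B2) ⊆ 𝔫`), and `m`-th roots of
elements `rd w`, `w ∈ B2 ∖ 𝔫`, are fractions `rd b / rd a` with `a ∉ 𝔫`. -/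
theorem loc_of_unibranch_local (B2 : Subring B) (𝔯 : Ideal B) (𝔫 : Ideal B2) [𝔫.IsPrime]
    {κ : Type*} [CommRing κ] (rd : B →+* κ)
    (c : B2) (hc : c ∉ 𝔫) (hker : ∀ z : B, rd z = 0 → (c : B) * z ∈ 𝔯)
    (h𝔯rd : ∀ z ∈ 𝔯, rd z = 0)
    (hrd𝔫 : ∀ b : B2, rd (b : B) = 0 → b ∈ 𝔫)
    {m : ℕ} (hm : m ≠ 0)
    (hroot : ∀ (z : κ) (w : B2), w ∉ 𝔫 → z ^ m = rd (w : B) →
      ∃ a b : B2, a ∉ 𝔫 ∧ rd (a : B) * z = rd (b : B))
    {g : B} {w : B2} (hw : w ∉ 𝔫) (hgw : g ^ m - (w : B) ∈ 𝔯) :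
    ∃ a b : B2, a ∉ 𝔫 ∧ b ∉ 𝔫 ∧ (a : B) * g - (b : B) ∈ 𝔯 := by
  have h1 : rd g ^ m = rd (w : B) := by
    have := h𝔯rd _ hgw
    rw [map_sub, map_pow, sub_eq_zero] at this
    exact this
  obtain ⟨a, b, ha, hab⟩ := hroot (rd g) w hw h1
  -- `b ∉ 𝔫`
  have hb : b ∉ 𝔫 := by
    intro hb
    have h2 : rd (((b ^ m - a ^ m * w : B2)) : B) = 0 := by
      push_cast
      rw [map_sub, map_mul, map_pow, map_pow, ← hab, mul_pow, h1, sub_self]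
    have h3 := hrd𝔫 _ h2
    have h4 : a ^ m * w ∈ 𝔫 := by
      have : a ^ m * w = b ^ m - (b ^ m - a ^ m * w) := by ring
      rw [this]
      exact 𝔫.sub_mem (Ideal.pow_mem_of_mem 𝔫 hb m (Nat.pos_of_ne_zero hm)) h3
    exact mul_notMem (pow_notMem ha m) hw h4
  have h5 : rd ((a : B) * g - (b : B)) = 0 := by
    rw [map_sub, map_mul, hab, sub_self]
  refine ⟨c * a, c * b, mul_notMem hc ha, mul_notMem hc hb, ?_⟩
  have h6 : ((c * a : B2) : B) * g - ((c * b : B2) : B) = (c : B) * ((a : B) * g - (b : B)) := by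
    push_cast; ring
  rw [h6]
  exact hker _ h5

/-- **(LOC) at a unibranch point where the image of `B2` is `m`-root closed** (e.g. integrally
closed in `κ`: the full Dedekind ring of the component, by surjectivity of the reduction of the old
functions). -/
theorem loc_of_unibranch (B2 : Subring B) (𝔯 : Ideal B) (𝔫 : Ideal B2) [𝔫.IsPrime]
    {κ : Type*} [CommRing κ] (rd : B →+* κ)
    (c : B2) (hc : c ∉ 𝔫) (hker : ∀ z : B, rd z = 0 → (c : B) * z ∈ 𝔯)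
    (h𝔯rd : ∀ z ∈ 𝔯, rd z = 0)
    (hrd𝔫 : ∀ b : B2, rd (b : B) = 0 → b ∈ 𝔫)
    {m : ℕ} (hm : m ≠ 0)
    (hroot : ∀ z : κ, (∃ w : B2, z ^ m = rd (w : B)) → ∃ b : B2, z = rd (b : B))
    {g : B} {w : B2} (hw : w ∉ 𝔫) (hgw : g ^ m - (w : B) ∈ 𝔯) :
    ∃ a b : B2, a ∉ 𝔫 ∧ b ∉ 𝔫 ∧ (a : B) * g - (b : B) ∈ 𝔯 := by
  have h1𝔫 : (1 : B2) ∉ 𝔫 := fun h => (Ideal.IsPrime.ne_top ‹_›) ((Ideal.eq_top_iff_one 𝔫).mpr h)
  refine loc_of_unibranch_local B2 𝔯 𝔫 rd c hc hker h𝔯rd hrd𝔫 hm ?_ hw hgw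
  intro z w' _ hz
  obtain ⟨b, hb⟩ := hroot z ⟨w', hz⟩
  exact ⟨1, b, h1𝔫, by simp [hb]⟩

/-! ### Several branches -/

/-- **(LOC) at a crossing point.**  `I ⊇ 𝔯` the ideal of functions vanishing at all branch points
over `𝔫` (`I ∩ B2 ⊆ 𝔫`), `c₀ · I ^ N ⊆ B2 + 𝔯` with `c₀ ∉ 𝔫` (conductor), `m ∉ 𝔫`, and `g ≡ b₀`
modulo `I` with `b₀ ∈ B2 ∖ 𝔫` (all branch values of `g` agree: `ξ = 1`).  Then `g`, which is an
`m`-th root of `w ∈ B2 ∖ 𝔫` modulo `𝔯`, is a fraction of elements of `B2 ∖ 𝔫` modulo `𝔯`. -/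
theorem loc_of_multibranch (B2 : Subring B) (𝔯 : Ideal B) (𝔫 : Ideal B2) [𝔫.IsPrime]
    (I : Ideal B) (h𝔯I : 𝔯 ≤ I) (hI𝔫 : ∀ b : B2, (b : B) ∈ I → b ∈ 𝔫)
    {m : ℕ} (hm : (m : B2) ∉ 𝔫)
    (N : ℕ) (c₀ : B2) (hc₀ : c₀ ∉ 𝔫) (hcond : ∀ z ∈ I ^ N, ∃ b : B2, (c₀ : B) * z - (b : B) ∈ 𝔯)
    {g : B} {w : B2} (hgw : g ^ m - (w : B) ∈ 𝔯)
    {b₀ : B2} (hb₀ : b₀ ∉ 𝔫) (hgb : g - (b₀ : B) ∈ I) :
    ∃ a b : B2, a ∉ 𝔫 ∧ b ∉ 𝔫 ∧ (a : B) * g - (b : B) ∈ 𝔯 := by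
  have h1𝔫 : (1 : B2) ∉ 𝔫 := fun h => (Ideal.IsPrime.ne_top ‹_›) ((Ideal.eq_top_iff_one 𝔫).mpr h)
  -- the filtration step
  have main : ∀ i : ℕ, ∃ a b : B2, a ∉ 𝔫 ∧ b ∉ 𝔫 ∧ (a : B) * g - (b : B) ∈ I ^ (i + 1) ⊔ 𝔯 := by
    intro i
    induction i with
    | zero =>
      refine ⟨1, b₀, h1𝔫, hb₀, ?_⟩
      have : ((1 : B2) : B) * g - (b₀ : B) = g - (b₀ : B) := by push_cast; ring
      rw [this, zero_add, pow_one]
      exact Ideal.mem_sup_left hgb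
    | succ i ih =>
      obtain ⟨a, b, ha, hb, hab⟩ := ih
      set n : B := (a : B) * g - (b : B) with hn
      have hnI : n ∈ I := by
        have h1 : I ^ (i + 1) ⊔ 𝔯 ≤ I := sup_le (Ideal.pow_le_self (Nat.succ_ne_zero i)) h𝔯I
        exact h1 hab
      -- `n ^ 2 ∈ I ^ (i + 2) ⊔ 𝔯`
      have hn2 : ∀ x : B, x * n ^ 2 ∈ I ^ (i + 1 + 1) ⊔ 𝔯 := by
        intro x
        obtain ⟨z, hz, ρ, hρ, hzρ⟩ := Submodule.mem_sup.mp hab
        have h2 : n ^ 2 = z * n + ρ * n := by rw [← hzρ]; ring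
        rw [h2, mul_add]
        refine Ideal.add_mem _ ?_ ?_
        · refine Ideal.mem_sup_left ?_
          have h3 : z * n ∈ I ^ (i + 1) * I := Ideal.mul_mem_mul hz hnI
          rw [← pow_succ] at h3
          exact Ideal.mul_mem_left _ _ h3
        · exact Ideal.mem_sup_right (Ideal.mul_mem_left _ _ (Ideal.mul_mem_right _ _ hρ))
      obtain ⟨k, hk⟩ := Polynomial.powAddExpansion (b : B) n m
      -- `(a g) ^ m = a ^ m w + a ^ m (g ^ m - w)`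
      have hag : (b : B) + n = (a : B) * g := by rw [hn]; ring
      set β : B2 := a ^ m * w - b ^ m with hβ
      have h4 : (m : B) * (b : B) ^ (m - 1) * n - (β : B) ∈ I ^ (i + 1 + 1) ⊔ 𝔯 := by
        have h5 : (m : B) * (b : B) ^ (m - 1) * n - (β : B)
            = (a : B) ^ m * (g ^ m - (w : B)) - k * n ^ 2 := by
          have h6 : ((a : B) * g) ^ m = (b : B) ^ m + m * (b : B) ^ (m - 1) * n + k * n ^ 2 := by
            rw [← hag]; exact hk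
          rw [hβ]
          push_cast
          have h7 : ((a : B) * g) ^ m = (a : B) ^ m * g ^ m := mul_pow _ _ _
          rw [h7] at h6
          linear_combination (-1 : B) * h6
        rw [h5]
        exact Ideal.sub_mem _ (Ideal.mem_sup_right (Ideal.mul_mem_left _ _ hgw)) (hn2 k)
      -- `β ∈ 𝔫`
      have hβ𝔫 : β ∈ 𝔫 := by
        apply hI𝔫
        have h1 : I ^ (i + 1 + 1) ⊔ 𝔯 ≤ I := sup_le (Ideal.pow_le_self (Nat.succ_ne_zero _)) h𝔯I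
        have h8 := h1 h4
        have h9 : (β : B) = (m : B) * (b : B) ^ (m - 1) * n
            - ((m : B) * (b : B) ^ (m - 1) * n - (β : B)) := by ring
        rw [h9]
        exact Ideal.sub_mem _ (Ideal.mul_mem_left _ _ hnI) h8
      have hm0 : m ≠ 0 := by
        rintro rfl
        exact hm (by simp)
      refine ⟨(m : B2) * b ^ (m - 1) * a, (m : B2) * b ^ m + β, ?_, ?_, ?_⟩
      · exact mul_notMem (mul_notMem hm (pow_notMem hb _)) ha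
      · intro h
        have h10 : (m : B2) * b ^ m ∈ 𝔫 := by
          have : (m : B2) * b ^ m = ((m : B2) * b ^ m + β) - β := by ring
          rw [this]
          exact 𝔫.sub_mem h hβ𝔫
        exact mul_notMem hm (pow_notMem hb _) h10
      · have h11 : (((m : B2) * b ^ (m - 1) * a : B2) : B) * g - (((m : B2) * b ^ m + β : B2) : B)
            = (m : B) * (b : B) ^ (m - 1) * n - (β : B) := by
          have h12 : (b : B) ^ m = (b : B) ^ (m - 1) * (b : B) := by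
            rw [← pow_succ, Nat.sub_add_cancel (Nat.pos_of_ne_zero hm0)]
          push_cast
          rw [hn, h12]
          ring
        rw [h11]
        exact h4
  -- the conductor step
  obtain ⟨a, b, ha, hb, hab⟩ := main N
  obtain ⟨z, hz, ρ, hρ, hzρ⟩ := Submodule.mem_sup.mp hab
  have hzN : z ∈ I ^ N := Ideal.pow_le_pow_right (Nat.le_succ N) hz
  have hzI : z ∈ I := Ideal.pow_le_self (Nat.succ_ne_zero N) hz
  obtain ⟨b', hb'⟩ := hcond z hzN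
  have hb'𝔫 : b' ∈ 𝔫 := by
    apply hI𝔫
    have : (b' : B) = (c₀ : B) * z - ((c₀ : B) * z - (b' : B)) := by ring
    rw [this]
    exact Ideal.sub_mem _ (Ideal.mul_mem_left _ _ hzI) (h𝔯I hb')
  refine ⟨c₀ * a, c₀ * b + b', mul_notMem hc₀ ha, ?_, ?_⟩
  · intro h
    have : c₀ * b ∈ 𝔫 := by
      have h1 : c₀ * b = (c₀ * b + b') - b' := by ring
      rw [h1]
      exact 𝔫.sub_mem h hb'𝔫
    exact mul_notMem hc₀ hb this
  · have h1 : ((c₀ * a : B2) : B) * g - ((c₀ * b + b' : B2) : B)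
        = ((c₀ : B) * z - (b' : B)) + (c₀ : B) * ρ := by
      push_cast
      have : (a : B) * g - (b : B) = z + ρ := hzρ.symm
      linear_combination (c₀ : B) * this
    rw [h1]
    exact 𝔯.add_mem hb' (𝔯.mul_mem_left _ hρ)

/-- **(LOC) at a crossing point, character form.**  The branch points over `𝔫` are given by ring
homomorphisms `χ i : B → k` killing `𝔯`, which restrict to ONE surjective character of `B2` with
kernel inside `𝔫`; `I = ⋂ ker χ i`.  The hypothesis `ξ = 1` reads `χ i g = χ j g`. -/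
theorem loc_of_chars (B2 : Subring B) (𝔯 : Ideal B) (𝔫 : Ideal B2) [𝔫.IsPrime]
    {k : Type*} [Field k] {ι : Type*} [Nonempty ι] (χ : ι → B →+* k)
    (hχ𝔯 : ∀ i, ∀ z ∈ 𝔯, χ i z = 0)
    (hχ𝔫 : ∀ i, ∀ b : B2, χ i (b : B) = 0 → b ∈ 𝔫)
    (hagree : ∀ i j, ∀ b : B2, χ i (b : B) = χ j (b : B))
    (hsurj : ∀ i, ∀ x : k, ∃ b : B2, χ i (b : B) = x)
    {m : ℕ} (hm : (m : B2) ∉ 𝔫)
    (N : ℕ) (c₀ : B2) (hc₀ : c₀ ∉ 𝔫)
    (hcond : ∀ z ∈ (⨅ i, RingHom.ker (χ i)) ^ N, ∃ b : B2, (c₀ : B) * z - (b : B) ∈ 𝔯)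
    {g : B} {w : B2} (hw : w ∉ 𝔫) (hgw : g ^ m - (w : B) ∈ 𝔯)
    (hξ : ∀ i j, χ i g = χ j g) :
    ∃ a b : B2, a ∉ 𝔫 ∧ b ∉ 𝔫 ∧ (a : B) * g - (b : B) ∈ 𝔯 := by
  obtain ⟨i₀⟩ := ‹Nonempty ι›
  obtain ⟨b₀, hb₀⟩ := hsurj i₀ (χ i₀ g)
  have hm0 : m ≠ 0 := by
    rintro rfl
    exact hm (by simp)
  refine loc_of_multibranch B2 𝔯 𝔫 (⨅ i, RingHom.ker (χ i)) ?_ ?_ hm N c₀ hc₀ hcond hgw
    (b₀ := b₀) ?_ ?_
  · intro z hz
    rw [Ideal.mem_iInf]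
    intro i
    exact (RingHom.mem_ker).mpr (hχ𝔯 i z hz)
  · intro b hb
    rw [Ideal.mem_iInf] at hb
    exact hχ𝔫 i₀ b ((RingHom.mem_ker).mp (hb i₀))
  · -- `b₀ ∉ 𝔫` : `χ b₀ = χ g`, `χ g ^ m = χ w ≠ 0`
    intro hb
    have h1 : χ i₀ g ^ m = χ i₀ (w : B) := by
      have := hχ𝔯 i₀ _ hgw
      rw [map_sub, map_pow, sub_eq_zero] at this
      exact this
    have h2 : χ i₀ (w : B) = χ i₀ ((b₀ ^ m : B2) : B) := by
      push_cast
      rw [map_pow, hb₀, h1]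
    have h3 : χ i₀ (((w - b₀ ^ m : B2)) : B) = 0 := by
      push_cast
      rw [map_sub, map_pow, hb₀, h1, sub_self]
    have h4 := hχ𝔫 i₀ _ h3
    apply hw
    have : w = (w - b₀ ^ m) + b₀ ^ m := by ring
    rw [this]
    exact 𝔫.add_mem h4 (Ideal.pow_mem_of_mem 𝔫 hb m (Nat.pos_of_ne_zero hm0))
  · rw [Ideal.mem_iInf]
    intro i
    rw [RingHom.mem_ker, map_sub, sub_eq_zero, hξ i i₀, ← hb₀, hagree i i₀]

end Fermat.Agent.GL.LocOfReg
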