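/-
GATE-L / (E) abstract core (helper28): the CECH-KUMMER lemma.

Two charts `U₁`, `U₂` of an arithmetic surface, `B` = functions on `U₁ ∩ U₂` (integral at all
vertical valuations), `B1`, `B2 ⊆ B` the rings of `U₁`, `U₂`, `M ⊆ B` the `B2`-module of sections
over `U₂` of a line bundle `O(D̄)` which is trivial on `U₁`, `u ∈ B1` with `div u = -m D`
(so `f ^ m * u ∈ B2` for `f ∈ M`), `q` the uniformiser of the base, `𝔯` the radical of `q B`.

* `pow_sub_pow_mem_succ` : the `N`-th power map contracts for the `(N, β - 1)`-adic topology.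
* `cech_kummer` : bounded `q`-torsion of `H¹ = B/(B1 + M)` + a section `β ∈ M` with `β ≡ 1`
  modulo the RADICAL `𝔯` + `u ≡ 1 mod 𝔯`, `N = 1 + m m'' ∈ 𝔯`
  `⟹` a global section `s ∈ B1 ∩ M` with `s ≡ 1 mod 𝔯` (in particular `s ≠ 0`).
  No orthonormal bases, no dimension count, no `H⁰(fibre) = k`, no reducedness of the fibre.
* `bt_of_noetherian`, `isNoetherian_quotient_of_span` : the bounded torsion hypothesis from finite
  generation of `H¹` over a noetherian base.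
* `cech_span` : finite generation of `H¹` by partial fractions (`H¹(ℙ¹, ·)` by hand).
* `exists_beta_of_loc` : the section `β` from the LOCAL triviality of the reduced line bundle.
* `exists_section` : everything assembled.

Mathlib only.
-/
import Mathlib

set_option autoImplicit false

namespace Fermat.Agent.GL.CechKummer

variable {B : Type*} [CommRing B]

/-! ### The contraction -/

/-- If `x ≡ y mod 𝔞` then `∑_{i<N} x^i y^(N-1-i) ≡ N y^(N-1) mod 𝔞`; in particular it lies in `𝔞`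
when `N ∈ 𝔞`. -/
theorem geom_sum₂_mem (𝔞 : Ideal B) (N : ℕ) (hN : (N : B) ∈ 𝔞) {x y : B} (hxy : x - y ∈ 𝔞) :
    ∑ i ∈ Finset.range N, x ^ i * y ^ (N - 1 - i) ∈ 𝔞 := by
  rw [← Ideal.Quotient.eq_zero_iff_mem, map_sum]
  have hx : Ideal.Quotient.mk 𝔞 x = Ideal.Quotient.mk 𝔞 y := Ideal.Quotient.eq.mpr hxy
  have h1 : ∀ i ∈ Finset.range N,
      Ideal.Quotient.mk 𝔞 (x ^ i * y ^ (N - 1 - i)) = (Ideal.Quotient.mk 𝔞 y) ^ (N - 1) := by
    intro i hi
    rw [Finset.mem_range] at hi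
    rw [map_mul, map_pow, map_pow, hx, ← pow_add]
    congr 1
    omega
  rw [Finset.sum_congr rfl h1, Finset.sum_const, Finset.card_range, nsmul_eq_mul]
  have h2 : ((N : ℕ) : B ⧸ 𝔞) = 0 := by
    have := Ideal.Quotient.eq_zero_iff_mem.mpr hN
    rwa [map_natCast] at this
  rw [h2, zero_mul]

/-- **Contraction.**  If `N ∈ 𝔞` and `x - y ∈ 𝔞 ^ j` with `1 ≤ j`, then `x ^ N - y ^ N ∈ 𝔞 ^ (j+1)`. -/
theorem pow_sub_pow_mem_succ (𝔞 : Ideal B) (N : ℕ) (hN : (N : B) ∈ 𝔞) {x y : B} {j : ℕ}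
    (hj : 1 ≤ j) (hxy : x - y ∈ 𝔞 ^ j) : x ^ N - y ^ N ∈ 𝔞 ^ (j + 1) := by
  have h1 : x - y ∈ 𝔞 := Ideal.pow_le_self (by omega) hxy
  have h2 := geom_sum₂_mem 𝔞 N hN h1
  have h3 : x ^ N - y ^ N = (x - y) * ∑ i ∈ Finset.range N, x ^ i * y ^ (N - 1 - i) := by
    rw [mul_comm]
    exact ((Commute.all x y).geom_sum₂_mul N).symm
  rw [h3, pow_succ]
  exact Ideal.mul_mem_mul hxy h2

/-! ### The core -/

/-- **Čech–Kummer core.**  See the file header. -/
theorem cech_kummer (B1 B2 : Subring B) (M : AddSubgroup B)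
    (hM : ∀ b ∈ B2, ∀ f ∈ M, b * f ∈ M)
    (q : B) (hq1 : q ∈ B1) (hq2 : q ∈ B2)
    (𝔯 : Ideal B) (hq𝔯 : q ∈ 𝔯) (e : ℕ) (h𝔯 : 𝔯 ^ e ≤ Ideal.span {q})
    (m m'' : ℕ) (hN : ((1 + m * m'' : ℕ) : B) ∈ 𝔯)
    (u : B) (hu : u ∈ B1) (hu1 : u - 1 ∈ 𝔯) (hum : ∀ f ∈ M, f ^ m * u ∈ B2)
    (c0 : ℕ)
    (hBT : ∀ (j : ℕ) (y : B), (∃ z1 ∈ B1, ∃ z2 ∈ M, q ^ j * y = z1 + z2) →
      ∃ z1 ∈ B1, ∃ z2 ∈ M, q ^ c0 * y = z1 + z2)
    (β : B) (hβ : β ∈ M) (hβ1 : β - 1 ∈ 𝔯) :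
    ∃ s, s ∈ B1 ∧ s ∈ M ∧ s - 1 ∈ 𝔯 := by
  classical
  set N : ℕ := 1 + m * m'' with hNdef
  set 𝔞 : Ideal B := Ideal.span {(N : B), β - 1} with h𝔞def
  have hN𝔞 : (N : B) ∈ 𝔞 := Ideal.subset_span (by simp)
  have hβ𝔞 : β - 1 ∈ 𝔞 := Ideal.subset_span (by simp)
  have h𝔞𝔯 : 𝔞 ≤ 𝔯 := by
    rw [h𝔞def, Ideal.span_le]
    intro x hx
    rcases hx with rfl | rfl
    · exact hN
    · exact hβ1
  -- the iteration
  let Θ : B → B := fun f => f ^ N * u ^ m''
  have key : ∀ r : ℕ, ∃ f1 f2 : B, f1 ∈ B1 ∧ f2 ∈ M ∧ f2 ^ m * u ∈ B2 ∧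
      f1 - f2 ∈ 𝔞 ^ (r + 1) ∧ f1 - 1 ∈ 𝔯 := by
    intro r
    induction r with
    | zero =>
      refine ⟨1, β, B1.one_mem, hβ, hum β hβ, ?_, by simp⟩
      rw [zero_add, pow_one]
      have : (1 : B) - β = -(β - 1) := by ring
      rw [this]
      exact 𝔞.neg_mem hβ𝔞
    | succ r ih =>
      obtain ⟨f1, f2, h1, h2, h3, h4, h5⟩ := ih
      refine ⟨Θ f1, Θ f2, ?_, ?_, ?_, ?_, ?_⟩
      · exact B1.mul_mem (B1.pow_mem h1 N) (B1.pow_mem hu m'')
      · have e1 : Θ f2 = (f2 ^ m * u) ^ m'' * f2 := by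
          show f2 ^ N * u ^ m'' = _
          rw [hNdef]
          ring
        rw [e1]
        exact hM _ (B2.pow_mem h3 m'') _ h2
      · have e2 : Θ f2 ^ m * u = (f2 ^ m * u) ^ N := by
          show (f2 ^ N * u ^ m'') ^ m * u = _
          rw [hNdef]
          ring
        rw [e2]
        exact B2.pow_mem h3 N
      · have e3 : Θ f1 - Θ f2 = u ^ m'' * (f1 ^ N - f2 ^ N) := by
          show f1 ^ N * u ^ m'' - f2 ^ N * u ^ m'' = _
          ring
        rw [e3]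
        exact Ideal.mul_mem_left _ _ (pow_sub_pow_mem_succ 𝔞 N hN𝔞 (by omega) h4)
      · rw [← Ideal.Quotient.eq_zero_iff_mem] at h5 hu1 ⊢
        rw [map_sub, map_one, sub_eq_zero] at h5 hu1
        show Ideal.Quotient.mk 𝔯 (f1 ^ N * u ^ m'' - 1) = 0
        rw [map_sub, map_mul, map_pow, map_pow, h5, hu1, map_one, one_pow, one_pow, mul_one,
          sub_self]
  obtain ⟨f1, f2, h1, h2, _, h4, h5⟩ := key (e * (c0 + 1))
  -- `f1 - f2 ∈ (q ^ (c0 + 1))`
  have h6 : f1 - f2 ∈ Ideal.span {q ^ (c0 + 1)} := by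
    have s1 : 𝔞 ^ (e * (c0 + 1) + 1) ≤ 𝔞 ^ (e * (c0 + 1)) := Ideal.pow_le_pow_right (by omega)
    have s2 : 𝔞 ^ (e * (c0 + 1)) ≤ 𝔯 ^ (e * (c0 + 1)) := Ideal.pow_right_mono h𝔞𝔯 _
    have s3 : 𝔯 ^ (e * (c0 + 1)) ≤ Ideal.span {q ^ (c0 + 1)} := by
      rw [pow_mul, ← Ideal.span_singleton_pow]
      exact Ideal.pow_right_mono h𝔯 _
    exact s3 (s2 (s1 h4))
  obtain ⟨x, hx⟩ := Ideal.mem_span_singleton'.mp h6
  obtain ⟨z1, hz1, z2, hz2, hz⟩ := hBT (c0 + 1) x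
    ⟨f1, h1, -f2, M.neg_mem h2, by rw [mul_comm, hx]; ring⟩
  refine ⟨f1 - q * z1, ?_, ?_, ?_⟩
  · exact B1.sub_mem h1 (B1.mul_mem hq1 hz1)
  · have e4 : f1 - q * z1 = f2 + q * z2 := by
      have : f1 - f2 = q * (z1 + z2) := by
        rw [← hz, ← hx, pow_succ]
        ring
      linear_combination this
    rw [e4]
    exact M.add_mem h2 (hM q hq2 z2 hz2)
  · have : f1 - q * z1 - 1 = (f1 - 1) - z1 * q := by ring
    rw [this]
    exact 𝔯.sub_mem h5 (𝔯.mul_mem_left _ hq𝔯)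

/-! ### Bounded torsion from noetherianity -/

section BT

variable {R0 : Type*} [CommRing R0] [Algebra R0 B]

/-- The `q`-power torsion of a noetherian quotient `B ⧸ P` is killed by one power of `q`. -/
theorem bt_of_noetherian (P : Submodule R0 B) [IsNoetherian R0 (B ⧸ P)] (q0 : R0) :
    ∃ c0 : ℕ, ∀ (j : ℕ) (y : B), q0 ^ j • y ∈ P → q0 ^ c0 • y ∈ P := by
  let K : ℕ →o Submodule R0 (B ⧸ P) :=
    ⟨fun j => LinearMap.ker (LinearMap.lsmul R0 (B ⧸ P) (q0 ^ j)), by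
      intro i j hij x hx
      rw [LinearMap.mem_ker, LinearMap.lsmul_apply] at hx ⊢
      obtain ⟨d, rfl⟩ := Nat.exists_eq_add_of_le hij
      rw [pow_add, mul_comm, mul_smul, hx, smul_zero]⟩
  obtain ⟨c0, hc0⟩ := (monotone_stabilizes_iff_noetherian (R := R0) (M := B ⧸ P)).mpr
    inferInstance K
  refine ⟨c0, fun j y hy => ?_⟩
  have hyK : Submodule.Quotient.mk (p := P) y ∈ K j := by
    show Submodule.Quotient.mk (p := P) y ∈
      LinearMap.ker (LinearMap.lsmul R0 (B ⧸ P) (q0 ^ j))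
    rw [LinearMap.mem_ker, LinearMap.lsmul_apply, ← Submodule.Quotient.mk_smul,
      Submodule.Quotient.mk_eq_zero]
    exact hy
  have hyK0 : Submodule.Quotient.mk (p := P) y ∈ K c0 := by
    rcases le_total c0 j with h | h
    · rw [hc0 j h]; exact hyK
    · exact K.monotone h hyK
  have : Submodule.Quotient.mk (p := P) y ∈
      LinearMap.ker (LinearMap.lsmul R0 (B ⧸ P) (q0 ^ c0)) := hyK0
  rw [LinearMap.mem_ker, LinearMap.lsmul_apply, ← Submodule.Quotient.mk_smul,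
    Submodule.Quotient.mk_eq_zero] at this
  exact this

/-- If `B = P + span G` with `G` finite and `R0` noetherian, then `B ⧸ P` is a noetherian module. -/
theorem isNoetherian_quotient_of_span [IsNoetherianRing R0] (P : Submodule R0 B) (G : Set B)
    (hG : G.Finite) (h : ∀ z : B, z ∈ P ⊔ Submodule.span R0 G) : IsNoetherian R0 (B ⧸ P) := by
  have hfg : (⊤ : Submodule R0 (B ⧸ P)).FG := by
    have h1 : (⊤ : Submodule R0 (B ⧸ P)) = Submodule.span R0 (P.mkQ '' G) := by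
      apply le_antisymm
      · rintro x -
        obtain ⟨z, rfl⟩ := P.mkQ_surjective x
        obtain ⟨p, hp, g, hg, rfl⟩ := Submodule.mem_sup.mp (h z)
        rw [map_add]
        have hp0 : P.mkQ p = 0 := by
          rw [Submodule.mkQ_apply, Submodule.Quotient.mk_eq_zero]; exact hp
        rw [hp0, zero_add, ← Submodule.map_span]
        exact Submodule.mem_map_of_mem hg
      · exact le_top
    rw [h1]
    exact Submodule.fg_span (hG.image _)
  have : Module.Finite R0 (B ⧸ P) := ⟨hfg⟩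
  exact isNoetherian_of_isNoetherianRing_of_finite R0 (B ⧸ P)

end BT

/-! ### The section `β` from local triviality on the reduced fibre -/

/-- **(LOC) ⟹ (LIFT).**  If at every maximal ideal `𝔫` of `B2` some section `g ∈ M` satisfies
`a g ≡ b mod 𝔯` with `a, b ∈ B2 ∖ 𝔫`, then some `β ∈ M` satisfies `β ≡ 1 mod 𝔯`. -/
theorem exists_beta_of_loc (B2 : Subring B) (M : AddSubgroup B)
    (hM : ∀ b ∈ B2, ∀ f ∈ M, b * f ∈ M) (𝔯 : Ideal B)
    (hloc : ∀ 𝔫 : Ideal B2, 𝔫.IsMaximal →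
      ∃ g ∈ M, ∃ a b : B2, a ∉ 𝔫 ∧ b ∉ 𝔫 ∧ (a : B) * g - (b : B) ∈ 𝔯) :
    ∃ β ∈ M, β - 1 ∈ 𝔯 := by
  let J : Ideal B2 :=
    { carrier := {b | ∃ g ∈ M, g - (b : B) ∈ 𝔯}
      zero_mem' := ⟨0, M.zero_mem, by simp⟩
      add_mem' := by
        rintro b b' ⟨g, hg, h⟩ ⟨g', hg', h'⟩
        refine ⟨g + g', M.add_mem hg hg', ?_⟩
        have : g + g' - ((b + b' : B2) : B) = (g - b) + (g' - b') := by push_cast; ring
        rw [this]
        exact 𝔯.add_mem h h'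
      smul_mem' := by
        rintro c b ⟨g, hg, h⟩
        refine ⟨(c : B) * g, hM _ c.2 _ hg, ?_⟩
        have : (c : B) * g - ((c • b : B2) : B) = (c : B) * (g - b) := by
          rw [smul_eq_mul]; push_cast; ring
        rw [this]
        exact 𝔯.mul_mem_left _ h }
  have hJ : J = ⊤ := by
    by_contra hne
    obtain ⟨𝔫, h𝔫, hJ𝔫⟩ := Ideal.exists_le_maximal J hne
    obtain ⟨g, hg, a, b, _, hb, hab⟩ := hloc 𝔫 h𝔫
    exact hb (hJ𝔫 ⟨(a : B) * g, hM _ a.2 _ hg, hab⟩)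
  have h1 : (1 : B2) ∈ J := by rw [hJ]; trivial
  obtain ⟨β, hβ, h⟩ := h1
  exact ⟨β, hβ, by simpa using h⟩

/-! ### Finite generation of `H¹` by partial fractions -/

section Cech

variable {R0 : Type*} [CommRing R0] [Algebra R0 B]

/-- **`H¹(ℙ¹, ·)` by hand.**  `P1` = sections over `U₁` (stable under `h`), generated over `R0[h]`
by finitely many `e i`; `Mm` = sections over `U₂` (stable under `h⁻¹`), generated over `R0[h⁻¹]` by
finitely many `f j` with `h ^ a' * f j ∈ P1`; every `z : B` is `h ^ n * y` with `y ∈ Mm`.  Then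
`B = P1 + Mm + ∑_{l < a', i} R0 · h⁻ˡ e i`. -/
theorem cech_span (P1 Mm : Submodule R0 B) (h hinv : B) (hh : h * hinv = 1)
    (hP1h : ∀ x ∈ P1, h * x ∈ P1) (hMh : ∀ y ∈ Mm, hinv * y ∈ Mm)
    {ι ι' : Type*} (e : ι → B) (f : ι' → B) (he : ∀ i, e i ∈ P1)
    (hP1 : ∀ x ∈ P1, x ∈ Submodule.span R0 {y | ∃ (k : ℕ) (i : ι), y = h ^ k * e i})
    (hf : ∀ j, f j ∈ Mm)
    (hMm : ∀ y ∈ Mm, y ∈ Submodule.span R0 {y | ∃ (k : ℕ) (j : ι'), y = hinv ^ k * f j})
    (a' : ℕ) (ha' : ∀ j, h ^ a' * f j ∈ P1)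
    (hB : ∀ z : B, ∃ (n : ℕ), ∃ y ∈ Mm, z = h ^ n * y) (z : B) :
    z ∈ (P1 ⊔ Mm) ⊔
      Submodule.span R0 {y | ∃ (l : ℕ) (i : ι), l < a' ∧ y = hinv ^ l * e i} := by
  set T : Submodule R0 B := (P1 ⊔ Mm) ⊔
    Submodule.span R0 {y | ∃ (l : ℕ) (i : ι), l < a' ∧ y = hinv ^ l * e i} with hT
  have hP1T : P1 ≤ T := le_sup_of_le_left le_sup_left
  have hMT : Mm ≤ T := le_sup_of_le_left le_sup_right
  have hk : ∀ k : ℕ, h ^ k * hinv ^ k = 1 := fun k => by rw [← mul_pow, hh, one_pow]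
  have hP1pow : ∀ (k : ℕ), ∀ x ∈ P1, h ^ k * x ∈ P1 := by
    intro k
    induction k with
    | zero => intro x hx; simpa using hx
    | succ k ih => intro x hx; rw [pow_succ, mul_assoc]; exact ih _ (hP1h x hx)
  have hMpow : ∀ (k : ℕ), ∀ y ∈ Mm, hinv ^ k * y ∈ Mm := by
    intro k
    induction k with
    | zero => intro x hx; simpa using hx
    | succ k ih => intro x hx; rw [pow_succ, mul_assoc]; exact ih _ (hMh x hx)
  -- Lemma A
  have hA : ∀ l : ℕ, l < a' → ∀ x ∈ P1, hinv ^ l * x ∈ T := by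
    intro l hl x hx
    have hle : Submodule.span R0 {y | ∃ (k : ℕ) (i : ι), y = h ^ k * e i} ≤
        Submodule.comap (LinearMap.mulLeft R0 (hinv ^ l)) T := by
      rw [Submodule.span_le]
      rintro y ⟨k, i, rfl⟩
      show hinv ^ l * (h ^ k * e i) ∈ T
      rcases le_total l k with hlk | hkl
      · obtain ⟨d, rfl⟩ := Nat.exists_eq_add_of_le hlk
        have : hinv ^ l * (h ^ (l + d) * e i) = h ^ d * e i := by
          rw [pow_add]
          calc hinv ^ l * (h ^ l * h ^ d * e i) = (h ^ l * hinv ^ l) * (h ^ d * e i) := by ring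
            _ = h ^ d * e i := by rw [hk, one_mul]
        rw [this]
        exact hP1T (hP1pow d _ (he i))
      · obtain ⟨d, rfl⟩ := Nat.exists_eq_add_of_le hkl
        have : hinv ^ (k + d) * (h ^ k * e i) = hinv ^ d * e i := by
          rw [pow_add]
          calc hinv ^ k * hinv ^ d * (h ^ k * e i) = (h ^ k * hinv ^ k) * (hinv ^ d * e i) := by
                ring
            _ = hinv ^ d * e i := by rw [hk, one_mul]
        rw [this]
        exact le_sup_right (a := P1 ⊔ Mm) (Submodule.subset_span ⟨d, i, by omega, rfl⟩)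
    exact hle (hP1 x hx)
  -- Step 2
  have hS : ∀ n : ℕ, ∀ y ∈ Mm, h ^ n * y ∈ T := by
    intro n y hy
    have hle : Submodule.span R0 {y | ∃ (k : ℕ) (j : ι'), y = hinv ^ k * f j} ≤
        Submodule.comap (LinearMap.mulLeft R0 (h ^ n)) T := by
      rw [Submodule.span_le]
      rintro y ⟨k, j, rfl⟩
      show h ^ n * (hinv ^ k * f j) ∈ T
      rcases le_total n k with hnk | hkn
      · obtain ⟨d, rfl⟩ := Nat.exists_eq_add_of_le hnk
        have : h ^ n * (hinv ^ (n + d) * f j) = hinv ^ d * f j := by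
          rw [pow_add]
          calc h ^ n * (hinv ^ n * hinv ^ d * f j) = (h ^ n * hinv ^ n) * (hinv ^ d * f j) := by
                ring
            _ = hinv ^ d * f j := by rw [hk, one_mul]
        rw [this]
        exact hMT (hMpow d _ (hf j))
      · obtain ⟨d, rfl⟩ := Nat.exists_eq_add_of_le hkn
        have e1 : h ^ (k + d) * (hinv ^ k * f j) = h ^ d * f j := by
          rw [pow_add]
          calc h ^ k * h ^ d * (hinv ^ k * f j) = (h ^ k * hinv ^ k) * (h ^ d * f j) := by ring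
            _ = h ^ d * f j := by rw [hk, one_mul]
        rw [e1]
        rcases le_total a' d with had | hda
        · obtain ⟨d', rfl⟩ := Nat.exists_eq_add_of_le had
          have : h ^ (a' + d') * f j = h ^ d' * (h ^ a' * f j) := by rw [pow_add]; ring
          rw [this]
          exact hP1T (hP1pow d' _ (ha' j))
        · rcases Nat.eq_zero_or_pos d with hd0 | hdpos
          · subst hd0
            rw [pow_zero, one_mul]
            exact hMT (hf j)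
          · obtain ⟨l, rfl⟩ := Nat.exists_eq_add_of_le hda
            have : h ^ d * f j = hinv ^ l * (h ^ (d + l) * f j) := by
              rw [pow_add]
              calc h ^ d * f j = (h ^ l * hinv ^ l) * (h ^ d * f j) := by rw [hk, one_mul]
                _ = hinv ^ l * (h ^ d * h ^ l * f j) := by ring
            rw [this]
            exact hA l (by omega) _ (ha' j)
    exact hle (hMm y hy)
  obtain ⟨n, y, hy, rfl⟩ := hB z
  exact hS n y hy

end Cech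

/-! ### Assembly -/

section Assembly

variable {R0 : Type*} [CommRing R0] [IsNoetherianRing R0] [Algebra R0 B]

/-- **Čech–Kummer, assembled.**  Over a noetherian base `R0 ∋ q0`: Čech data (`cech_span`) give
the bounded torsion, local triviality on the reduced fibre (`hloc`) gives `β`, and `cech_kummer`
gives a global section `s ∈ B1 ∩ M` with `s ≡ 1 mod 𝔯`. -/
theorem exists_section (B1 B2 : Subalgebra R0 B) (M : Submodule R0 B)
    (hM : ∀ b ∈ B2, ∀ f ∈ M, b * f ∈ M)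
    (q0 : R0) (𝔯 : Ideal B) (hq𝔯 : algebraMap R0 B q0 ∈ 𝔯) (e : ℕ)
    (h𝔯 : 𝔯 ^ e ≤ Ideal.span {algebraMap R0 B q0})
    (m m'' : ℕ) (hN : ((1 + m * m'' : ℕ) : B) ∈ 𝔯)
    (u : B) (hu : u ∈ B1) (hu1 : u - 1 ∈ 𝔯) (hum : ∀ f ∈ M, f ^ m * u ∈ B2)
    (h hinv : B) (hh : h * hinv = 1) (hh1 : h ∈ B1) (hh2 : hinv ∈ B2)
    {ι ι' : Type*} [Finite ι] (e1 : ι → B) (f : ι' → B) (he1 : ∀ i, e1 i ∈ B1)
    (hB1 : ∀ x ∈ B1, x ∈ Submodule.span R0 {y | ∃ (k : ℕ) (i : ι), y = h ^ k * e1 i})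
    (hf : ∀ j, f j ∈ M)
    (hMspan : ∀ y ∈ M, y ∈ Submodule.span R0 {y | ∃ (k : ℕ) (j : ι'), y = hinv ^ k * f j})
    (a' : ℕ) (ha' : ∀ j, h ^ a' * f j ∈ B1)
    (hB : ∀ z : B, ∃ (n : ℕ), ∃ y ∈ M, z = h ^ n * y)
    (hloc : ∀ 𝔫 : Ideal B2.toSubring, 𝔫.IsMaximal →
      ∃ g ∈ M, ∃ a b : B2.toSubring, a ∉ 𝔫 ∧ b ∉ 𝔫 ∧ (a : B) * g - (b : B) ∈ 𝔯) :
    ∃ s, s ∈ B1 ∧ s ∈ M ∧ s - 1 ∈ 𝔯 := by
  set P1 : Submodule R0 B := Subalgebra.toSubmodule B1 with hP1def
  -- finite generation of `H¹`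
  have hspan := cech_span P1 M h hinv hh (fun x hx => B1.mul_mem hh1 hx)
    (fun y hy => hM _ hh2 _ hy) e1 f he1 hB1 hf hMspan a' ha' hB
  have hfin : ({y | ∃ (l : ℕ) (i : ι), l < a' ∧ y = hinv ^ l * e1 i} : Set B).Finite := by
    have : ({y | ∃ (l : ℕ) (i : ι), l < a' ∧ y = hinv ^ l * e1 i} : Set B) ⊆
        Set.range (fun p : Fin a' × ι => hinv ^ (p.1 : ℕ) * e1 p.2) := by
      rintro y ⟨l, i, hl, rfl⟩
      exact ⟨(⟨l, hl⟩, i), rfl⟩
    exact (Set.finite_range _).subset this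
  have hnoeth : IsNoetherian R0 (B ⧸ (P1 ⊔ M)) :=
    isNoetherian_quotient_of_span (P1 ⊔ M) _ hfin hspan
  obtain ⟨c0, hc0⟩ := bt_of_noetherian (P1 ⊔ M) q0
  -- the section `β`
  obtain ⟨β, hβ, hβ1⟩ := exists_beta_of_loc B2.toSubring M.toAddSubgroup
    (fun b hb f hf => hM b hb f hf) 𝔯 hloc
  -- the core
  have hsmul : ∀ (j : ℕ) (y : B), (algebraMap R0 B q0) ^ j * y = q0 ^ j • y := by
    intro j y
    rw [Algebra.smul_def, map_pow]
  obtain ⟨s, hs1, hs2, hs3⟩ := cech_kummer B1.toSubring B2.toSubring M.toAddSubgroup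
    (fun b hb f hf => hM b hb f hf) (algebraMap R0 B q0) (B1.algebraMap_mem q0)
    (B2.algebraMap_mem q0) 𝔯 hq𝔯 e h𝔯 m m'' hN u hu hu1 hum c0
    (by
      rintro j y ⟨z1, hz1, z2, hz2, hz⟩
      have h1 : q0 ^ j • y ∈ P1 ⊔ M := by
        rw [← hsmul, hz]
        exact Submodule.add_mem_sup hz1 hz2
      obtain ⟨z1', hz1', z2', hz2', hz'⟩ := Submodule.mem_sup.mp (hc0 j y h1)
      exact ⟨z1', hz1', z2', hz2', by rw [hsmul, hz']⟩)
    β hβ hβ1
  exact ⟨s, hs1, hs2, hs3⟩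

end Assembly

end Fermat.Agent.GL.CechKummer
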