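/-
GATE-L / L8 (helper28): the CECH-KUMMER lemma in AMBIENT form — all rings and modules are subsets of
ONE ring `F` (in the application: the function field `F_L`), so that the instance builder never has
to form the type `↥B12`.

* `bt_of_noetherian_module`, `isNoetherian_quotient_of_span_module` : module-level bounded torsion.
* `pow_le_of_forall_prod` : `𝔯 ^ e ≤ J` from products of `e` elements.
* `exists_beta_of_loc_ambient` : (LOC) ⟹ `β`, with the radical an additive subgroup of `F`.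
* `exists_section_ambient` : the assembled statement (consumer form of `exists_section`).

Mathlib + `GL/Lattice/CechKummer.lean`.
-/
import Mathlib
import Fermat.Agent.GL.Lattice.CechKummer

set_option autoImplicit false

namespace Fermat.Agent.GL.CechKummer

/-! ### Module-level bounded torsion -/

section ModuleBT

variable {R0 V : Type*} [CommRing R0] [AddCommGroup V] [Module R0 V]

/-- The `q`-power torsion of a noetherian quotient `V ⧸ P` is killed by one power of `q`. -/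
theorem bt_of_noetherian_module (P : Submodule R0 V) [IsNoetherian R0 (V ⧸ P)] (q0 : R0) :
    ∃ c0 : ℕ, ∀ (j : ℕ) (y : V), q0 ^ j • y ∈ P → q0 ^ c0 • y ∈ P := by
  let K : ℕ →o Submodule R0 (V ⧸ P) :=
    ⟨fun j => LinearMap.ker (LinearMap.lsmul R0 (V ⧸ P) (q0 ^ j)), by
      intro i j hij x hx
      rw [LinearMap.mem_ker, LinearMap.lsmul_apply] at hx ⊢
      obtain ⟨d, rfl⟩ := Nat.exists_eq_add_of_le hij
      rw [pow_add, mul_comm, mul_smul, hx, smul_zero]⟩
  obtain ⟨c0, hc0⟩ := (monotone_stabilizes_iff_noetherian (R := R0) (M := V ⧸ P)).mpr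
    inferInstance K
  refine ⟨c0, fun j y hy => ?_⟩
  have hyK : Submodule.Quotient.mk (p := P) y ∈ K j := by
    show Submodule.Quotient.mk (p := P) y ∈
      LinearMap.ker (LinearMap.lsmul R0 (V ⧸ P) (q0 ^ j))
    rw [LinearMap.mem_ker, LinearMap.lsmul_apply, ← Submodule.Quotient.mk_smul,
      Submodule.Quotient.mk_eq_zero]
    exact hy
  have hyK0 : Submodule.Quotient.mk (p := P) y ∈ K c0 := by
    rcases le_total c0 j with h | h
    · rw [hc0 j h]; exact hyK
    · exact K.monotone h hyK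
  have : Submodule.Quotient.mk (p := P) y ∈
      LinearMap.ker (LinearMap.lsmul R0 (V ⧸ P) (q0 ^ c0)) := hyK0
  rw [LinearMap.mem_ker, LinearMap.lsmul_apply, ← Submodule.Quotient.mk_smul,
    Submodule.Quotient.mk_eq_zero] at this
  exact this

/-- If `V = P + span G` with `G` finite and `R0` noetherian, then `V ⧸ P` is noetherian. -/
theorem isNoetherian_quotient_of_span_module [IsNoetherianRing R0] (P : Submodule R0 V)
    (G : Set V) (hG : G.Finite) (h : ∀ z : V, z ∈ P ⊔ Submodule.span R0 G) :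
    IsNoetherian R0 (V ⧸ P) := by
  have hfg : (⊤ : Submodule R0 (V ⧸ P)).FG := by
    have h1 : (⊤ : Submodule R0 (V ⧸ P)) = Submodule.span R0 (P.mkQ '' G) := by
      apply le_antisymm
      · rintro x -
        obtain ⟨z, rfl⟩ := P.mkQ_surjective x
        obtain ⟨p, hp, g, hg, rfl⟩ := Submodule.mem_sup.mp (h z)
        rw [map_add]
        have hp0 : P.mkQ p = 0 := by
          rw [Submodule.mkQ_apply, Submodule.Quotient.mk_eq_zero]; exact hp
        rw [hp0, zero_add, ← Submodule.map_span]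
        exact Submodule.mem_map_of_mem hg
      · exact le_top
    rw [h1]
    exact Submodule.fg_span (hG.image _)
  have : Module.Finite R0 (V ⧸ P) := ⟨hfg⟩
  exact isNoetherian_of_isNoetherianRing_of_finite R0 (V ⧸ P)

end ModuleBT

/-! ### Powers of an ideal -/

/-- `𝔯 ^ e ≤ J` as soon as every product of `e` elements of `𝔯` lies in `J`. -/
theorem pow_le_of_forall_prod {B : Type*} [CommRing B] (𝔯 : Ideal B) :
    ∀ (e : ℕ) (J : Ideal B), (∀ f : Fin e → B, (∀ i, f i ∈ 𝔯) → ∏ i, f i ∈ J) → 𝔯 ^ e ≤ J := by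
  intro e
  induction e with
  | zero =>
    intro J h
    have h1 : (1 : B) ∈ J := by simpa using h (fun i => i.elim0) (fun i => i.elim0)
    rw [(Ideal.eq_top_iff_one J).mpr h1]
    exact le_top
  | succ e ih =>
    intro J h
    rw [pow_succ', Ideal.mul_le]
    intro r hr s hs
    have := ih (Submodule.comap (LinearMap.mulLeft B r) J) (by
      intro f hf
      show r * ∏ i, f i ∈ J
      have h2 := h (Fin.cons r f) (by
        intro i
        refine Fin.cases ?_ (fun i => ?_) i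
        · simpa using hr
        · simpa using hf i)
      rwa [Fin.prod_univ_succ, Fin.cons_zero, show (fun i : Fin e => (Fin.cons r f : Fin (e+1) → B) i.succ) = f from
        funext fun i => Fin.cons_succ _ _ _] at h2)
    exact this hs

/-! ### The ambient statements -/

section Ambient

variable {R0 F : Type*} [CommRing R0] [CommRing F] [Algebra R0 F]

/-- **(LOC) ⟹ (LIFT), ambient form.**  `rad` is an additive subgroup of `F` stable under
multiplication by `B2`. -/
theorem exists_beta_of_loc_ambient (B2 : Subalgebra R0 F) (M : Submodule R0 F)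
    (hM : ∀ b ∈ B2, ∀ f ∈ M, b * f ∈ M) (rad : AddSubgroup F)
    (hradmul : ∀ b ∈ B2, ∀ x ∈ rad, b * x ∈ rad)
    (hloc : ∀ 𝔫 : Ideal B2, 𝔫.IsMaximal →
      ∃ g ∈ M, ∃ a b : B2, a ∉ 𝔫 ∧ b ∉ 𝔫 ∧ (a : F) * g - (b : F) ∈ rad) :
    ∃ β ∈ M, β - 1 ∈ rad := by
  let J : Ideal B2 :=
    { carrier := {b | ∃ g ∈ M, g - (b : F) ∈ rad}
      zero_mem' := ⟨0, M.zero_mem, by simp⟩
      add_mem' := by
        rintro b b' ⟨g, hg, h⟩ ⟨g', hg', h'⟩
        refine ⟨g + g', M.add_mem hg hg', ?_⟩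
        have : g + g' - ((b + b' : B2) : F) = (g - b) + (g' - b') := by push_cast; ring
        rw [this]
        exact rad.add_mem h h'
      smul_mem' := by
        rintro c b ⟨g, hg, h⟩
        refine ⟨(c : F) * g, hM _ c.2 _ hg, ?_⟩
        have : (c : F) * g - ((c • b : B2) : F) = (c : F) * (g - b) := by
          rw [smul_eq_mul]; push_cast; ring
        rw [this]
        exact hradmul _ c.2 _ h }
  have hJ : J = ⊤ := by
    by_contra hne
    obtain ⟨𝔫, h𝔫, hJ𝔫⟩ := Ideal.exists_le_maximal J hne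
    obtain ⟨g, hg, a, b, _, hb, hab⟩ := hloc 𝔫 h𝔫
    exact hb (hJ𝔫 ⟨(a : F) * g, hM _ a.2 _ hg, hab⟩)
  have h1 : (1 : B2) ∈ J := by rw [hJ]; trivial
  obtain ⟨β, hβ, h⟩ := h1
  exact ⟨β, hβ, by simpa using h⟩

/-- **`H¹(ℙ¹, ·)` by hand, ambient form**: `h ^ n * y ∈ P1 + Mm + ∑_{l < a', i} R0 · h⁻ˡ e i` for
every `y ∈ Mm` (same proof as `cech_span`, without the hypothesis that `B = ⋃ hⁿ Mm`). -/
theorem cech_span_aux (P1 Mm : Submodule R0 F) (h hinv : F) (hh : h * hinv = 1)
    (hP1h : ∀ x ∈ P1, h * x ∈ P1) (hMh : ∀ y ∈ Mm, hinv * y ∈ Mm)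
    {ι ι' : Type*} (e : ι → F) (f : ι' → F) (he : ∀ i, e i ∈ P1)
    (hP1 : ∀ x ∈ P1, x ∈ Submodule.span R0 {y | ∃ (k : ℕ) (i : ι), y = h ^ k * e i})
    (hf : ∀ j, f j ∈ Mm)
    (hMm : ∀ y ∈ Mm, y ∈ Submodule.span R0 {y | ∃ (k : ℕ) (j : ι'), y = hinv ^ k * f j})
    (a' : ℕ) (ha' : ∀ j, h ^ a' * f j ∈ P1) (n : ℕ) (y : F) (hy : y ∈ Mm) :
    h ^ n * y ∈ (P1 ⊔ Mm) ⊔
      Submodule.span R0 {y | ∃ (l : ℕ) (i : ι), l < a' ∧ y = hinv ^ l * e i} := by
  set T : Submodule R0 F := (P1 ⊔ Mm) ⊔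
    Submodule.span R0 {y | ∃ (l : ℕ) (i : ι), l < a' ∧ y = hinv ^ l * e i} with hT
  have hP1T : P1 ≤ T := le_sup_of_le_left le_sup_left
  have hMT : Mm ≤ T := le_sup_of_le_left le_sup_right
  have hk : ∀ k : ℕ, h ^ k * hinv ^ k = 1 := fun k => by rw [← mul_pow, hh, one_pow]
  have hP1pow : ∀ (k : ℕ), ∀ x ∈ P1, h ^ k * x ∈ P1 := by
    intro k
    induction k with
    | zero => intro x hx; simpa using hx
    | succ k ih => intro x hx; rw [pow_succ, mul_assoc]; exact ih _ (hP1h x hx)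
  have hMpow : ∀ (k : ℕ), ∀ y ∈ Mm, hinv ^ k * y ∈ Mm := by
    intro k
    induction k with
    | zero => intro x hx; simpa using hx
    | succ k ih => intro x hx; rw [pow_succ, mul_assoc]; exact ih _ (hMh x hx)
  have hA : ∀ l : ℕ, l < a' → ∀ x ∈ P1, hinv ^ l * x ∈ T := by
    intro l hl x hx
    have hle : Submodule.span R0 {y | ∃ (k : ℕ) (i : ι), y = h ^ k * e i} ≤
        Submodule.comap (LinearMap.mulLeft R0 (hinv ^ l)) T := by
      rw [Submodule.span_le]
      rintro y ⟨k, i, rfl⟩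
      show hinv ^ l * (h ^ k * e i) ∈ T
      rcases le_total l k with hlk | hkl
      · obtain ⟨d, rfl⟩ := Nat.exists_eq_add_of_le hlk
        have : hinv ^ l * (h ^ (l + d) * e i) = h ^ d * e i := by
          rw [pow_add]
          calc hinv ^ l * (h ^ l * h ^ d * e i) = (h ^ l * hinv ^ l) * (h ^ d * e i) := by ring
            _ = h ^ d * e i := by rw [hk, one_mul]
        rw [this]
        exact hP1T (hP1pow d _ (he i))
      · obtain ⟨d, rfl⟩ := Nat.exists_eq_add_of_le hkl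
        have : hinv ^ (k + d) * (h ^ k * e i) = hinv ^ d * e i := by
          rw [pow_add]
          calc hinv ^ k * hinv ^ d * (h ^ k * e i) = (h ^ k * hinv ^ k) * (hinv ^ d * e i) := by
                ring
            _ = hinv ^ d * e i := by rw [hk, one_mul]
        rw [this]
        exact le_sup_right (a := P1 ⊔ Mm) (Submodule.subset_span ⟨d, i, by omega, rfl⟩)
    exact hle (hP1 x hx)
  have hle : Submodule.span R0 {y | ∃ (k : ℕ) (j : ι'), y = hinv ^ k * f j} ≤
      Submodule.comap (LinearMap.mulLeft R0 (h ^ n)) T := by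
    rw [Submodule.span_le]
    rintro y ⟨k, j, rfl⟩
    show h ^ n * (hinv ^ k * f j) ∈ T
    rcases le_total n k with hnk | hkn
    · obtain ⟨d, rfl⟩ := Nat.exists_eq_add_of_le hnk
      have : h ^ n * (hinv ^ (n + d) * f j) = hinv ^ d * f j := by
        rw [pow_add]
        calc h ^ n * (hinv ^ n * hinv ^ d * f j) = (h ^ n * hinv ^ n) * (hinv ^ d * f j) := by
              ring
          _ = hinv ^ d * f j := by rw [hk, one_mul]
      rw [this]
      exact hMT (hMpow d _ (hf j))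
    · obtain ⟨d, rfl⟩ := Nat.exists_eq_add_of_le hkn
      have e1 : h ^ (k + d) * (hinv ^ k * f j) = h ^ d * f j := by
        rw [pow_add]
        calc h ^ k * h ^ d * (hinv ^ k * f j) = (h ^ k * hinv ^ k) * (h ^ d * f j) := by ring
          _ = h ^ d * f j := by rw [hk, one_mul]
      rw [e1]
      rcases le_total a' d with had | hda
      · obtain ⟨d', rfl⟩ := Nat.exists_eq_add_of_le had
        have : h ^ (a' + d') * f j = h ^ d' * (h ^ a' * f j) := by rw [pow_add]; ring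
        rw [this]
        exact hP1T (hP1pow d' _ (ha' j))
      · rcases Nat.eq_zero_or_pos d with hd0 | hdpos
        · subst hd0
          rw [pow_zero, one_mul]
          exact hMT (hf j)
        · obtain ⟨l, rfl⟩ := Nat.exists_eq_add_of_le hda
          have : h ^ d * f j = hinv ^ l * (h ^ (d + l) * f j) := by
            rw [pow_add]
            calc h ^ d * f j = (h ^ l * hinv ^ l) * (h ^ d * f j) := by rw [hk, one_mul]
              _ = hinv ^ l * (h ^ d * h ^ l * f j) := by ring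
          rw [this]
          exact hA l (by omega) _ (ha' j)
  exact hle (hMm y hy)

/-- **Čech–Kummer, ambient consumer form.**  Everything lives in one ring `F`:
`B1, B2 ≤ B12` subalgebras, `M ⊆ B12` the module of sections over `U₂`, `rad ⊆ B12` the radical of
`q B12` (an additive subgroup stable under `B12`, with `∏_{i<e} x_i ∈ q B12` for `x_i ∈ rad`). -/
theorem exists_section_ambient [IsNoetherianRing R0]
    (B12 B1 B2 : Subalgebra R0 F) (h1 : B1 ≤ B12) (h2 : B2 ≤ B12)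
    (M : Submodule R0 F) (hM12 : ∀ f ∈ M, f ∈ B12) (hM : ∀ b ∈ B2, ∀ f ∈ M, b * f ∈ M)
    (q0 : R0) (rad : AddSubgroup F)
    (hradmul : ∀ b ∈ B12, ∀ x ∈ rad, b * x ∈ rad) (hqrad : algebraMap R0 F q0 ∈ rad)
    (e : ℕ)
    (hrade : ∀ f : Fin e → F, (∀ i, f i ∈ rad) → ∃ z ∈ B12, ∏ i, f i = algebraMap R0 F q0 * z)
    (m m'' : ℕ) (hN : ((1 + m * m'' : ℕ) : F) ∈ rad)
    (u : F) (hu : u ∈ B1) (hu1 : u - 1 ∈ rad) (hum : ∀ f ∈ M, f ^ m * u ∈ B2)
    (h hinv : F) (hh : h * hinv = 1) (hh1 : h ∈ B1) (hh2 : hinv ∈ B2)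
    {ι ι' : Type*} [Finite ι] (e1 : ι → F) (f : ι' → F) (he1 : ∀ i, e1 i ∈ B1)
    (hB1 : ∀ x ∈ B1, x ∈ Submodule.span R0 {y | ∃ (k : ℕ) (i : ι), y = h ^ k * e1 i})
    (hf : ∀ j, f j ∈ M)
    (hMspan : ∀ y ∈ M, y ∈ Submodule.span R0 {y | ∃ (k : ℕ) (j : ι'), y = hinv ^ k * f j})
    (a' : ℕ) (ha' : ∀ j, h ^ a' * f j ∈ B1)
    (hB : ∀ z ∈ B12, ∃ (n : ℕ), ∃ y ∈ M, z = h ^ n * y)
    (hloc : ∀ 𝔫 : Ideal B2, 𝔫.IsMaximal →
      ∃ g ∈ M, ∃ a b : B2, a ∉ 𝔫 ∧ b ∉ 𝔫 ∧ (a : F) * g - (b : F) ∈ rad) :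
    ∃ s, s ∈ B1 ∧ s ∈ M ∧ s - 1 ∈ rad := by
  classical
  -- the section `β`
  obtain ⟨β, hβ, hβ1⟩ := exists_beta_of_loc_ambient B2 M hM rad
    (fun b hb x hx => hradmul b (h2 hb) x hx) hloc
  -- notation
  set P1 : Submodule R0 F := Subalgebra.toSubmodule B1 with hP1def
  set V : Submodule R0 F := Subalgebra.toSubmodule B12 with hVdef
  set Q : Submodule R0 F := P1 ⊔ M with hQdef
  have hQV : Q ≤ V := sup_le (fun x hx => h1 hx) (fun x hx => hM12 x hx)
  set G : Set F := {y | ∃ (l : ℕ) (i : ι), l < a' ∧ y = hinv ^ l * e1 i} with hGdef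
  have hGfin : G.Finite := by
    have : G ⊆ Set.range (fun p : Fin a' × ι => hinv ^ (p.1 : ℕ) * e1 p.2) := by
      rintro y ⟨l, i, hl, rfl⟩
      exact ⟨(⟨l, hl⟩, i), rfl⟩
    exact (Set.finite_range _).subset this
  have hGV : G ⊆ V := by
    rintro y ⟨l, i, -, rfl⟩
    exact B12.mul_mem (B12.pow_mem (h2 hh2) l) (h1 (he1 i))
  have hspan : ∀ z ∈ V, z ∈ Q ⊔ Submodule.span R0 G := by
    intro z hz
    obtain ⟨n, y, hy, rfl⟩ := hB z hz
    exact cech_span_aux P1 M h hinv hh (fun x hx => B1.mul_mem hh1 hx)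
      (fun y hy => hM _ hh2 _ hy) e1 f he1 hB1 hf hMspan a' ha' n y hy
  -- bounded torsion on the module `V`
  set P : Submodule R0 V := Submodule.comap V.subtype Q with hPdef
  set G' : Set V := V.subtype ⁻¹' G with hG'def
  have hG'fin : G'.Finite := hGfin.preimage (Subtype.val_injective.injOn)
  have hG'span : Submodule.map V.subtype (Submodule.span R0 G') = Submodule.span R0 G := by
    rw [Submodule.map_span]
    congr 1
    ext y
    constructor
    · rintro ⟨y', hy', rfl⟩; exact hy'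
    · intro hy; exact ⟨⟨y, hGV hy⟩, hy, rfl⟩
  have hspanV : ∀ z : V, z ∈ P ⊔ Submodule.span R0 G' := by
    intro z
    obtain ⟨p, hp, g, hg, hpg⟩ := Submodule.mem_sup.mp (hspan z z.2)
    rw [← hG'span] at hg
    obtain ⟨g', hg', rfl⟩ := hg
    have hpV : p ∈ V := hQV hp
    have : z = ⟨p, hpV⟩ + g' := by
      apply Subtype.ext
      rw [← hpg]; rfl
    rw [this]
    exact Submodule.add_mem_sup (show (⟨p, hpV⟩ : V) ∈ P from hp) hg'
  have hnoeth : IsNoetherian R0 (V ⧸ P) :=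
    isNoetherian_quotient_of_span_module P G' hG'fin hspanV
  obtain ⟨c0, hc0⟩ := bt_of_noetherian_module P q0
  -- transport to the ring `↥B12`
  let B1' : Subring B12 := B1.toSubring.comap (B12.val : B12 →+* F)
  let B2' : Subring B12 := B2.toSubring.comap (B12.val : B12 →+* F)
  let M' : AddSubgroup B12 := M.toAddSubgroup.comap (B12.val : B12 →+* F).toAddMonoidHom
  let 𝔯' : Ideal B12 :=
    { carrier := {x | (x : F) ∈ rad}
      zero_mem' := rad.zero_mem
      add_mem' := fun {a b} ha hb => rad.add_mem ha hb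
      smul_mem' := fun c x hx => hradmul _ c.2 _ hx }
  have hprod : ∀ g : Fin e → B12, ((∏ i, g i : B12) : F) = ∏ i, (g i : F) := fun g =>
    map_prod B12.val g Finset.univ
  have h𝔯' : 𝔯' ^ e ≤ Ideal.span {algebraMap R0 B12 q0} := by
    apply pow_le_of_forall_prod
    intro g hg
    obtain ⟨z, hz, hgz⟩ := hrade (fun i => (g i : F)) hg
    rw [Ideal.mem_span_singleton']
    refine ⟨⟨z, hz⟩, Subtype.ext ?_⟩
    rw [hprod, hgz, mul_comm]
    rfl
  obtain ⟨s, hs1, hs2, hs3⟩ := cech_kummer B1' B2' M'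
    (fun b hb f hf => hM _ hb _ hf) (algebraMap R0 B12 q0)
    (B1.algebraMap_mem q0) (B2.algebraMap_mem q0) 𝔯' hqrad e h𝔯' m m''
    (show (((1 + m * m'' : ℕ) : B12) : F) ∈ rad by
      have : (((1 + m * m'' : ℕ) : B12) : F) = ((1 + m * m'' : ℕ) : F) :=
        map_natCast B12.val _
      rw [this]; exact hN)
    ⟨u, h1 hu⟩ hu hu1 (fun f hf => hum _ hf) c0
    (by
      rintro j y ⟨z1, hz1, z2, hz2, hz⟩
      have hy1 : q0 ^ j • (⟨(y : F), y.2⟩ : V) ∈ P := by
        show q0 ^ j • (y : F) ∈ Q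
        have : q0 ^ j • (y : F) = (z1 : F) + (z2 : F) := by
          have := congrArg (fun x : B12 => (x : F)) hz
          simp only [Subalgebra.coe_mul, Subalgebra.coe_pow, Subalgebra.coe_algebraMap,
            Subalgebra.coe_add] at this
          rw [Algebra.smul_def, map_pow]
          exact this
        rw [this]
        exact Submodule.add_mem_sup hz1 hz2
      have hy2 : q0 ^ c0 • (y : F) ∈ Q := hc0 j ⟨(y : F), y.2⟩ hy1
      obtain ⟨w1, hw1, w2, hw2, hw⟩ := Submodule.mem_sup.mp hy2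
      refine ⟨⟨w1, h1 hw1⟩, hw1, ⟨w2, hM12 w2 hw2⟩, hw2, Subtype.ext ?_⟩
      simp only [Subalgebra.coe_mul, Subalgebra.coe_pow, Subalgebra.coe_algebraMap,
        Subalgebra.coe_add]
      rw [hw, Algebra.smul_def, map_pow])
    ⟨β, hM12 β hβ⟩ hβ
    (show ((⟨β, hM12 β hβ⟩ : B12) : F) - ((1 : B12) : F) ∈ rad from hβ1)
  exact ⟨(s : F), hs1, hs2, hs3⟩

end Ambient

end Fermat.Agent.GL.CechKummer
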