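/-
GATE-L / L8-INST in FIELD FORM (helper33): helper28's Čech–Kummer lemma
(`GL/Lattice/CechKummer.lean`, `exists_section`) INSTANTIATED inside a field `F0 ⊇ R0`, with

* `B1 := IC R0 {h}`   = integral closure of `R0[h]` in `F0`      (functions on `U₁ = X - (h)_∞`),
* `B2 := IC R0 {h⁻¹}` = integral closure of `R0[h⁻¹]` in `F0`    (functions on `U₂ = X - (h)_0`),
* `B12 := IC R0 {h, h⁻¹}` = integral closure of `R0[h, h⁻¹]`     (functions on `U₁ ∩ U₂`),
* `M := Msec R0 h u m = {f ∈ B12 | f ^ m * u ∈ B2}` : the sections over `U₂` of the line bundle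
  `O(D̄)`, `div u = -m D`, DEFINED by the `u`-trick.  It is an additive subgroup and a `B2`-module
  BY INTEGRALITY ALONE (`mixed_mem`): no divisor theory, no Krull domains, no list of the
  vertical valuations,
* `𝔯 := rad (q0 B12)`.

All Čech hypotheses of `exists_section` (`hM hum hB1 hMspan ha' hB h𝔯 hN`) are DISCHARGED from
`Module.Finite R0[h] B1`, `Module.Finite R0[h⁻¹] B2` (Mathlib `IsIntegralClosure.finite` in the
application) over a noetherian base.  What is left is exactly: `u ∈ B1`, `u ≡ 1 mod 𝔯`, and the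
LOCAL triviality `(LOC)` on the reduced fibre.

* `exists_pow_mul_mem_IC` : `B12 = B1[1/h]` (clearing denominators, `scaleRoots`);
* `isNoetherianRing_IC12` : `B12` is noetherian (localisation of `B1` at `h`);
* `Msec`, `mul_mem_Msec`, `exists_eq_pow_mul_Msec` (`hB`), `exists_fg_Msec` (`hMspan`);
* `InRad q0 h x` : `x ∈ rad (q0 B12)` in `F0`-language (`x ∈ B12 ∧ ∃ k, ∃ c ∈ B12, x ^ k = q0 c`),
  `inRad_iff`, `InRad.add`, `InRad.mul_left`; `exists_beta_of_loc_field` : `(LOC) ⟹ β`;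
* `finite_integralClosure_adjoin` : the `Module.Finite` hypotheses from `IsIntegralClosure.finite`;
* **`exists_root_of_loc`** : `u = g / s ^ m` with `s ≠ 0`, `g ≠ 0`, `g ∈ B1 ∩ B2`, and `g` in EVERY
  valuation ring of `F0` containing `R0` (so `g` is a constant of the generic fibre).

Mathlib + `GL/Lattice/CechKummer.lean` only.
-/
import Mathlib
import Fermat.Agent.GL.Lattice.CechKummer

set_option autoImplicit false

namespace Fermat.Agent.GL.CechKummerField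

open Polynomial

variable {R0 F0 : Type*} [CommRing R0] [Field F0] [Algebra R0 F0]

/-! ### Integral closures of `R0[S]` inside `F0` -/

/-- the integral closure of `R0[S]` in `F0`, as an `R0`-subalgebra of `F0` -/
def IC (R0 : Type*) {F0 : Type*} [CommRing R0] [Field F0] [Algebra R0 F0] (S : Set F0) :
    Subalgebra R0 F0 :=
  (integralClosure ↥(Algebra.adjoin R0 S) F0).restrictScalars R0

theorem mem_IC {S : Set F0} {x : F0} :
    x ∈ IC R0 S ↔ IsIntegral ↥(Algebra.adjoin R0 S) x := Iff.rfl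

theorem adjoin_le_IC (S : Set F0) : Algebra.adjoin R0 S ≤ IC R0 S := by
  intro x hx
  rw [mem_IC]
  exact isIntegral_algebraMap (R := ↥(Algebra.adjoin R0 S)) (x := ⟨x, hx⟩)

theorem subset_IC {S : Set F0} {x : F0} (hx : x ∈ S) : x ∈ IC R0 S :=
  adjoin_le_IC S (Algebra.subset_adjoin hx)

theorem IC_mono {S T : Set F0} (hST : S ⊆ T) : IC R0 S ≤ IC R0 T := by
  intro x hx
  rw [mem_IC] at hx ⊢
  exact IsIntegral.map_of_comp_eq
    (Subalgebra.inclusion (Algebra.adjoin_mono hST) : ↥(Algebra.adjoin R0 S) →ₐ[R0] _).toRingHom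
    (RingHom.id F0) (by ext; rfl) hx

/-- integrally closed in `F0`, power form -/
theorem mem_IC_of_pow {S : Set F0} {x : F0} {n : ℕ} (hn : 0 < n) (hx : x ^ n ∈ IC R0 S) :
    x ∈ IC R0 S := by
  rw [mem_IC] at hx ⊢
  exact IsIntegral.of_pow hn hx

/-- every valuation ring containing `R0` and `S` contains `IC R0 S` -/
theorem IC_le_valuationSubring {S : Set F0} (O : ValuationSubring F0)
    (hR : ∀ r : R0, algebraMap R0 F0 r ∈ O) (hS : ∀ x ∈ S, x ∈ O) {x : F0} (hx : x ∈ IC R0 S) :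
    x ∈ O := by
  rw [mem_IC] at hx
  have hle : Algebra.adjoin R0 S ≤ (⟨O.toSubring.toSubsemiring, hR⟩ : Subalgebra R0 F0) :=
    Algebra.adjoin_le hS
  let φ : ↥(Algebra.adjoin R0 S) →+* ↥O :=
    RingHom.codRestrict (Algebra.adjoin R0 S).val.toRingHom O.toSubring (fun y => hle y.2)
  have h1 : IsIntegral ↥O x :=
    IsIntegral.map_of_comp_eq φ (RingHom.id F0) (by ext; rfl) hx
  obtain ⟨y, rfl⟩ := IsIntegrallyClosed.isIntegral_iff.mp h1
  exact y.2

/-! ### Clearing denominators -/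

/-- clearing denominators in `R0[h, h⁻¹]` -/
theorem exists_pow_mul_mem_adjoin {h : F0} (hh : h ≠ 0) {c : F0}
    (hc : c ∈ Algebra.adjoin R0 ({h, h⁻¹} : Set F0)) :
    ∃ n : ℕ, h ^ n * c ∈ Algebra.adjoin R0 ({h} : Set F0) := by
  have hmem : h ∈ Algebra.adjoin R0 ({h} : Set F0) := Algebra.subset_adjoin rfl
  induction hc using Algebra.adjoin_induction with
  | mem x hx =>
    rcases hx with rfl | hx
    · exact ⟨0, by simp [hmem]⟩
    · rw [Set.mem_singleton_iff] at hx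
      subst hx
      exact ⟨1, by rw [pow_one, mul_inv_cancel₀ hh]; exact one_mem _⟩
  | algebraMap r => exact ⟨0, by simp⟩
  | add x y _ _ hx hy =>
    obtain ⟨a, ha⟩ := hx
    obtain ⟨b, hb⟩ := hy
    refine ⟨a + b, ?_⟩
    have : h ^ (a + b) * (x + y) = h ^ b * (h ^ a * x) + h ^ a * (h ^ b * y) := by ring
    rw [this]
    exact add_mem (mul_mem (pow_mem hmem b) ha) (mul_mem (pow_mem hmem a) hb)
  | mul x y _ _ hx hy =>
    obtain ⟨a, ha⟩ := hx
    obtain ⟨b, hb⟩ := hy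
    refine ⟨a + b, ?_⟩
    have : h ^ (a + b) * (x * y) = (h ^ a * x) * (h ^ b * y) := by ring
    rw [this]
    exact mul_mem ha hb

/-- **Clearing denominators in the integral closure**: `B12 = B1[1/h]`. -/
theorem exists_pow_mul_mem_IC {h : F0} (hh : h ≠ 0) {x : F0} (hx : x ∈ IC R0 ({h, h⁻¹} : Set F0)) :
    ∃ n : ℕ, h ^ n * x ∈ IC R0 ({h} : Set F0) := by
  classical
  rw [mem_IC] at hx
  obtain ⟨p, hp, hpx⟩ := hx
  have hmem : h ∈ Algebra.adjoin R0 ({h} : Set F0) := Algebra.subset_adjoin rfl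
  have hD : ∀ c : ↥(Algebra.adjoin R0 ({h, h⁻¹} : Set F0)),
      ∃ n : ℕ, h ^ n * (c : F0) ∈ Algebra.adjoin R0 ({h} : Set F0) :=
    fun c => exists_pow_mul_mem_adjoin hh c.2
  choose nc hnc using hD
  set n := (Finset.range (p.natDegree + 1)).sup (fun i => nc (p.coeff i)) with hn
  have hn' : ∀ i, h ^ n * ((p.coeff i : ↥(Algebra.adjoin R0 ({h, h⁻¹} : Set F0))) : F0) ∈
      Algebra.adjoin R0 ({h} : Set F0) := by
    intro i
    by_cases hi : i ∈ Finset.range (p.natDegree + 1)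
    · have hle : nc (p.coeff i) ≤ n := Finset.le_sup (f := fun i => nc (p.coeff i)) hi
      obtain ⟨k, hk⟩ := Nat.exists_eq_add_of_le hle
      have e : h ^ n * ((p.coeff i : ↥(Algebra.adjoin R0 ({h, h⁻¹} : Set F0))) : F0) =
          h ^ k * (h ^ nc (p.coeff i) * (p.coeff i : F0)) := by
        rw [hk]; ring
      rw [e]
      exact mul_mem (pow_mem hmem k) (hnc _)
    · have : p.coeff i = 0 := coeff_eq_zero_of_natDegree_lt (by
        rw [Finset.mem_range] at hi; omega)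
      rw [this]
      simp
  have h12 : h ∈ Algebra.adjoin R0 ({h, h⁻¹} : Set F0) := Algebra.subset_adjoin (by simp)
  let s : ↥(Algebra.adjoin R0 ({h, h⁻¹} : Set F0)) := ⟨h ^ n, pow_mem h12 n⟩
  let incl : ↥(Algebra.adjoin R0 ({h} : Set F0)) →+* ↥(Algebra.adjoin R0 ({h, h⁻¹} : Set F0)) :=
    (Subalgebra.inclusion (Algebra.adjoin_mono (by simp)) :
      ↥(Algebra.adjoin R0 ({h} : Set F0)) →ₐ[R0] _).toRingHom
  have hlift : scaleRoots p s ∈ lifts incl := by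
    rw [lifts_iff_coeff_lifts]
    intro i
    rw [coeff_scaleRoots]
    rcases lt_trichotomy i p.natDegree with hi | hi | hi
    · obtain ⟨j, hj⟩ := Nat.exists_eq_add_of_lt hi
      have e : p.natDegree - i = j + 1 := by omega
      rw [e, pow_succ, ← mul_assoc]
      refine ⟨⟨(((p.coeff i * s ^ j * s : ↥(Algebra.adjoin R0 ({h, h⁻¹} : Set F0)))) : F0), ?_⟩, ?_⟩
      · have e2 : (((p.coeff i * s ^ j * s : ↥(Algebra.adjoin R0 ({h, h⁻¹} : Set F0)))) : F0) =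
            (h ^ n) ^ j * (h ^ n * (p.coeff i : F0)) := by
          push_cast
          ring
        rw [e2]
        exact mul_mem (pow_mem (pow_mem hmem n) j) (hn' i)
      · rfl
    · rw [hi, Nat.sub_self, pow_zero, mul_one, hp.coeff_natDegree]
      exact ⟨1, map_one _⟩
    · rw [coeff_eq_zero_of_natDegree_lt hi, zero_mul]
      exact ⟨0, map_zero _⟩
  obtain ⟨q, hq1, -, hq3⟩ := lifts_and_natDegree_eq_and_monic hlift
    ((monic_scaleRoots_iff s).mpr hp)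
  refine ⟨n, ?_⟩
  rw [mem_IC]
  refine ⟨q, hq3, ?_⟩
  have e3 : algebraMap ↥(Algebra.adjoin R0 ({h} : Set F0)) F0 =
      (algebraMap ↥(Algebra.adjoin R0 ({h, h⁻¹} : Set F0)) F0).comp incl := by
    ext; rfl
  rw [e3, ← eval₂_map, hq1]
  have := scaleRoots_eval₂_eq_zero (algebraMap ↥(Algebra.adjoin R0 ({h, h⁻¹} : Set F0)) F0)
    (s := s) hpx
  exact this

/-! ### The module of sections defined by the `u`-trick -/

/-- the mixed terms of `(f + g)^m u` -/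
theorem mixed_mem {S : Set F0} {f g u : F0} {m : ℕ} (hm : 0 < m)
    (hf : f ^ m * u ∈ IC R0 S) (hg : g ^ m * u ∈ IC R0 S) {i : ℕ} (hi : i ≤ m) :
    f ^ i * g ^ (m - i) * u ∈ IC R0 S := by
  apply mem_IC_of_pow hm
  have e : (f ^ i * g ^ (m - i) * u) ^ m = (f ^ m * u) ^ i * (g ^ m * u) ^ (m - i) := by
    have h1 : u ^ m = u ^ i * u ^ (m - i) := by rw [← pow_add]; congr 1; omega
    rw [mul_pow, mul_pow, mul_pow, mul_pow, h1, ← pow_mul, ← pow_mul, ← pow_mul, ← pow_mul,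
      mul_comm i m, mul_comm (m - i) m]
    ring
  rw [e]
  exact mul_mem (pow_mem hf i) (pow_mem hg (m - i))

/-- **`M = {f ∈ B12 | f^m u ∈ B2}`**, an `R0`-submodule of `F0`. -/
def Msec (R0 : Type*) {F0 : Type*} [CommRing R0] [Field F0] [Algebra R0 F0]
    (h u : F0) (m : ℕ) (hm : 0 < m) : Submodule R0 F0 where
  carrier := {f | f ∈ IC R0 ({h, h⁻¹} : Set F0) ∧ f ^ m * u ∈ IC R0 ({h⁻¹} : Set F0)}
  zero_mem' := ⟨zero_mem _, by rw [zero_pow hm.ne', zero_mul]; exact zero_mem _⟩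
  add_mem' := by
    rintro f g ⟨hf1, hf2⟩ ⟨hg1, hg2⟩
    refine ⟨add_mem hf1 hg1, ?_⟩
    rw [add_pow, Finset.sum_mul]
    refine sum_mem fun i hi => ?_
    rw [Finset.mem_range] at hi
    have e : f ^ i * g ^ (m - i) * (m.choose i : F0) * u =
        (m.choose i : F0) * (f ^ i * g ^ (m - i) * u) := by ring
    rw [e]
    exact mul_mem (natCast_mem _ _) (mixed_mem hm hf2 hg2 (by omega))
  smul_mem' := by
    rintro r f ⟨hf1, hf2⟩
    refine ⟨Subalgebra.smul_mem _ hf1 r, ?_⟩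
    rw [Algebra.smul_def, mul_pow, mul_assoc]
    exact mul_mem (pow_mem (Subalgebra.algebraMap_mem _ r) m) hf2

theorem mem_Msec {h u : F0} {m : ℕ} {hm : 0 < m} {f : F0} :
    f ∈ Msec R0 h u m hm ↔
      f ∈ IC R0 ({h, h⁻¹} : Set F0) ∧ f ^ m * u ∈ IC R0 ({h⁻¹} : Set F0) := Iff.rfl

theorem mul_mem_Msec {h u : F0} {m : ℕ} {hm : 0 < m} {b f : F0}
    (hb : b ∈ IC R0 ({h⁻¹} : Set F0)) (hf : f ∈ Msec R0 h u m hm) :
    b * f ∈ Msec R0 h u m hm := by
  refine ⟨mul_mem (IC_mono (by simp) hb) hf.1, ?_⟩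
  rw [mul_pow, mul_assoc]
  exact mul_mem (pow_mem hb m) hf.2

/-! ### `hB` and `ha'` -/

theorem exists_inv_pow_mul_mem_IC {h : F0} (hh : h ≠ 0) {x : F0}
    (hx : x ∈ IC R0 ({h, h⁻¹} : Set F0)) : ∃ n : ℕ, h⁻¹ ^ n * x ∈ IC R0 ({h⁻¹} : Set F0) := by
  have e : ({h, h⁻¹} : Set F0) = {h⁻¹, h⁻¹⁻¹} := by rw [inv_inv, Set.pair_comm]
  rw [e] at hx
  exact exists_pow_mul_mem_IC (inv_ne_zero hh) hx

/-- **`hB`**: every function on `U₁ ∩ U₂` is `h ^ n` times a section of `M`. -/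
theorem exists_eq_pow_mul_Msec {h u : F0} (hh : h ≠ 0) {m : ℕ} {hm : 0 < m}
    (hu : u ∈ IC R0 ({h, h⁻¹} : Set F0)) {z : F0} (hz : z ∈ IC R0 ({h, h⁻¹} : Set F0)) :
    ∃ n : ℕ, ∃ y ∈ Msec R0 h u m hm, z = h ^ n * y := by
  obtain ⟨n1, h1⟩ := exists_inv_pow_mul_mem_IC hh hz
  obtain ⟨n2, h2⟩ := exists_inv_pow_mul_mem_IC hh hu
  have hinv2 : h⁻¹ ∈ IC R0 ({h⁻¹} : Set F0) := subset_IC rfl
  have hinv12 : h⁻¹ ∈ IC R0 ({h, h⁻¹} : Set F0) := subset_IC (by simp)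
  refine ⟨n1 + n2, h⁻¹ ^ (n1 + n2) * z, ⟨mul_mem (pow_mem hinv12 _) hz, ?_⟩, ?_⟩
  · obtain ⟨m', rfl⟩ : ∃ m', m = m' + 1 := ⟨m - 1, by omega⟩
    have e : (h⁻¹ ^ (n1 + n2) * z) ^ (m' + 1) * u =
        (h⁻¹ ^ n1 * z) ^ (m' + 1) * (h⁻¹ ^ n2 * u) * (h⁻¹ ^ n2) ^ m' := by ring
    rw [e]
    exact mul_mem (mul_mem (pow_mem h1 _) h2) (pow_mem (pow_mem hinv2 _) _)
  · rw [← mul_assoc, ← mul_pow, mul_inv_cancel₀ hh, one_pow, one_mul]

/-- **`ha'`**: a common power of `h` moving finitely many functions on `U₁ ∩ U₂` into `B1`. -/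
theorem exists_pow_mul_mem_IC_family {h : F0} (hh : h ≠ 0) {ι' : Type*} [Finite ι']
    (f : ι' → F0) (hf : ∀ j, f j ∈ IC R0 ({h, h⁻¹} : Set F0)) :
    ∃ a' : ℕ, ∀ j, h ^ a' * f j ∈ IC R0 ({h} : Set F0) := by
  classical
  have := Fintype.ofFinite ι'
  have hex : ∀ j, ∃ n : ℕ, h ^ n * f j ∈ IC R0 ({h} : Set F0) :=
    fun j => exists_pow_mul_mem_IC hh (hf j)
  choose n hn using hex
  obtain ⟨N, hN⟩ : ∃ N : ℕ, ∀ j, n j ≤ N :=
    ⟨Finset.univ.sup n, fun j => Finset.le_sup (f := n) (Finset.mem_univ j)⟩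
  refine ⟨N, fun j => ?_⟩
  obtain ⟨k, hk⟩ := Nat.exists_eq_add_of_le (hN j)
  have e : h ^ N * f j = h ^ k * (h ^ n j * f j) := by rw [hk, pow_add]; ring
  rw [e]
  exact mul_mem (pow_mem (subset_IC (R0 := R0) (Set.mem_singleton h)) k) (hn j)

/-! ### Spans over `R0[a]` versus `R0`-spans with powers of `a` -/

/-- the `R0`-span of `{a ^ k * e i}` is stable under multiplication by `R0[a]` -/
theorem mul_mem_span_pow {a : F0} {ι : Type*} (e : ι → F0) {c : F0}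
    (hc : c ∈ Algebra.adjoin R0 ({a} : Set F0)) :
    ∀ x ∈ Submodule.span R0 {y | ∃ (k : ℕ) (i : ι), y = a ^ k * e i},
      c * x ∈ Submodule.span R0 {y | ∃ (k : ℕ) (i : ι), y = a ^ k * e i} := by
  induction hc using Algebra.adjoin_induction with
  | mem c hc =>
    rw [Set.mem_singleton_iff] at hc
    subst hc
    intro x hx
    induction hx using Submodule.span_induction with
    | mem x hx =>
      obtain ⟨k, i, rfl⟩ := hx
      refine Submodule.subset_span ⟨k + 1, i, ?_⟩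
      rw [pow_succ]; ring
    | zero => rw [mul_zero]; exact zero_mem _
    | add x y _ _ hx hy => rw [mul_add]; exact add_mem hx hy
    | smul r x _ hx => rw [mul_smul_comm]; exact Submodule.smul_mem _ r hx
  | algebraMap r =>
    intro x hx
    rw [← Algebra.smul_def]
    exact Submodule.smul_mem _ r hx
  | add c c' _ _ hc hc' =>
    intro x hx
    rw [add_mul]
    exact add_mem (hc x hx) (hc' x hx)
  | mul c c' _ _ hc hc' =>
    intro x hx
    rw [mul_assoc]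
    exact hc _ (hc' x hx)

theorem span_adjoin_le_span_pow {a : F0} {ι : Type*} (e : ι → F0) {x : F0}
    (hx : x ∈ Submodule.span ↥(Algebra.adjoin R0 ({a} : Set F0)) (Set.range e)) :
    x ∈ Submodule.span R0 {y | ∃ (k : ℕ) (i : ι), y = a ^ k * e i} := by
  induction hx using Submodule.span_induction with
  | mem x hx =>
    obtain ⟨i, rfl⟩ := hx
    exact Submodule.subset_span ⟨0, i, by rw [pow_zero, one_mul]⟩
  | zero => exact zero_mem _
  | add x y _ _ hx hy => exact add_mem hx hy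
  | smul c x _ hx =>
    have : c • x = (c : F0) * x := by rw [Algebra.smul_def]; rfl
    rw [this]
    exact mul_mem_span_pow e c.2 x hx

/-- transfer of span membership from `F0` to a subalgebra -/
theorem mem_span_of_coe_mem_span (B : Subalgebra R0 F0) (G : Set ↥B) (x : ↥B)
    (hx : (x : F0) ∈ Submodule.span R0 (Subtype.val '' G)) : x ∈ Submodule.span R0 G := by
  have e : Submodule.span R0 (Subtype.val '' G) =
      (Submodule.span R0 G).map B.val.toLinearMap := by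
    rw [Submodule.map_span]
    rfl
  rw [e] at hx
  obtain ⟨y, hy, hyx⟩ := hx
  have : y = x := Subtype.ext hyx
  rw [← this]
  exact hy

/-! ### Finite generation -/

theorem isNoetherianRing_adjoin_singleton [IsNoetherianRing R0] (a : F0) :
    IsNoetherianRing ↥(Algebra.adjoin R0 ({a} : Set F0)) := by
  have h1 : (Algebra.adjoin R0 ({a} : Set F0)).FG :=
    Subalgebra.fg_def.mpr ⟨{a}, Set.finite_singleton a, rfl⟩
  have h2 : Algebra.FiniteType R0 ↥(Algebra.adjoin R0 ({a} : Set F0)) :=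
    (Subalgebra.fg_iff_finiteType _).mp h1
  exact Algebra.FiniteType.isNoetherianRing R0 _

/-- **`hB1`**: generators of `B1` over `R0[a]`, in the `R0`-span-with-powers shape. -/
theorem exists_gen_IC {a : F0}
    [hfin : Module.Finite ↥(Algebra.adjoin R0 ({a} : Set F0))
      ↥(integralClosure ↥(Algebra.adjoin R0 ({a} : Set F0)) F0)] :
    ∃ s : Finset F0, (∀ e ∈ s, e ∈ IC R0 ({a} : Set F0)) ∧
      ∀ x ∈ IC R0 ({a} : Set F0),
        x ∈ Submodule.span R0 {y | ∃ (k : ℕ) (i : ↥s), y = a ^ k * (i : F0)} := by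
  classical
  obtain ⟨t, ht⟩ := hfin.fg_top
  refine ⟨t.image Subtype.val, ?_, ?_⟩
  · intro e he
    obtain ⟨y, _, rfl⟩ := Finset.mem_image.mp he
    exact y.2
  · intro x hx
    have h1 : (⟨x, hx⟩ : ↥(integralClosure ↥(Algebra.adjoin R0 ({a} : Set F0)) F0)) ∈
        Submodule.span ↥(Algebra.adjoin R0 ({a} : Set F0)) (t : Set _) := by
      rw [ht]; trivial
    have h2 := Submodule.apply_mem_span_image_of_mem_span
      (integralClosure ↥(Algebra.adjoin R0 ({a} : Set F0)) F0).val.toLinearMap h1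
    apply span_adjoin_le_span_pow (e := fun i : ↥(t.image Subtype.val) => (i : F0))
    refine Submodule.span_mono ?_ h2
    rintro _ ⟨y, hy, rfl⟩
    exact ⟨⟨y.1, Finset.mem_image_of_mem _ hy⟩, rfl⟩

/-- **`hMspan`**: `M` is finitely generated over `R0[h⁻¹]` (it embeds into `B2` by multiplication
with `u h⁻ⁿ`), in the `R0`-span-with-powers shape. -/
theorem exists_fg_Msec [IsNoetherianRing R0] {h u : F0} (hh : h ≠ 0) (hu0 : u ≠ 0) {m : ℕ}
    {hm : 0 < m} (hu : u ∈ IC R0 ({h, h⁻¹} : Set F0))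
    [Module.Finite ↥(Algebra.adjoin R0 ({h⁻¹} : Set F0))
      ↥(integralClosure ↥(Algebra.adjoin R0 ({h⁻¹} : Set F0)) F0)] :
    ∃ s : Finset F0, (∀ f ∈ s, f ∈ Msec R0 h u m hm) ∧
      ∀ y ∈ Msec R0 h u m hm,
        y ∈ Submodule.span R0 {z | ∃ (k : ℕ) (j : ↥s), z = h⁻¹ ^ k * (j : F0)} := by
  classical
  have hA2 : IsNoetherianRing ↥(Algebra.adjoin R0 ({h⁻¹} : Set F0)) :=
    isNoetherianRing_adjoin_singleton _
  have hN : IsNoetherian ↥(Algebra.adjoin R0 ({h⁻¹} : Set F0))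
      ↥(integralClosure ↥(Algebra.adjoin R0 ({h⁻¹} : Set F0)) F0) :=
    isNoetherian_of_isNoetherianRing_of_finite _ _
  have hN' : IsNoetherian ↥(Algebra.adjoin R0 ({h⁻¹} : Set F0))
      ↥(Subalgebra.toSubmodule (integralClosure ↥(Algebra.adjoin R0 ({h⁻¹} : Set F0)) F0)) := hN
  -- `M` as a module over `R0[h⁻¹]`
  let Ma : Submodule ↥(Algebra.adjoin R0 ({h⁻¹} : Set F0)) F0 :=
    { carrier := Msec R0 h u m hm
      add_mem' := fun ha hb => (Msec R0 h u m hm).add_mem ha hb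
      zero_mem' := (Msec R0 h u m hm).zero_mem
      smul_mem' := fun c f hf => by
        have : c • f = (c : F0) * f := by rw [Algebra.smul_def]; rfl
        rw [this]
        exact mul_mem_Msec (adjoin_le_IC _ c.2) hf }
  obtain ⟨n, hn⟩ := exists_inv_pow_mul_mem_IC hh hu
  have hd0 : h⁻¹ ^ n * u ≠ 0 := mul_ne_zero (pow_ne_zero _ (inv_ne_zero hh)) hu0
  have hinv2 : h⁻¹ ∈ IC R0 ({h⁻¹} : Set F0) := subset_IC rfl
  have hle : Ma.map (LinearMap.mulLeft ↥(Algebra.adjoin R0 ({h⁻¹} : Set F0)) (h⁻¹ ^ n * u)) ≤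
      Subalgebra.toSubmodule (integralClosure ↥(Algebra.adjoin R0 ({h⁻¹} : Set F0)) F0) := by
    rintro _ ⟨f, hf, rfl⟩
    have hf' : f ∈ Msec R0 h u m hm := hf
    show h⁻¹ ^ n * u * f ∈ IC R0 ({h⁻¹} : Set F0)
    apply mem_IC_of_pow hm
    obtain ⟨m', rfl⟩ : ∃ m', m = m' + 1 := ⟨m - 1, by omega⟩
    have e : (h⁻¹ ^ n * u * f) ^ (m' + 1) =
        (f ^ (m' + 1) * u) * (h⁻¹ ^ n * u) ^ m' * h⁻¹ ^ n := by ring
    rw [e]
    exact mul_mem (mul_mem hf'.2 (pow_mem hn _)) (pow_mem hinv2 _)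
  have hfg := isNoetherian_submodule.mp hN' _ hle
  have hfgM : Ma.FG := Submodule.fg_of_fg_map_injective
    (LinearMap.mulLeft ↥(Algebra.adjoin R0 ({h⁻¹} : Set F0)) (h⁻¹ ^ n * u))
    (mul_right_injective₀ hd0) hfg
  obtain ⟨s, hs⟩ := hfgM
  refine ⟨s, fun f hf => ?_, fun y hy => ?_⟩
  · have : f ∈ Ma := by rw [← hs]; exact Submodule.subset_span hf
    exact this
  · have h1 : y ∈ Submodule.span ↥(Algebra.adjoin R0 ({h⁻¹} : Set F0)) (s : Set F0) := by
      rw [hs]; exact hy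
    apply span_adjoin_le_span_pow (e := fun j : ↥s => (j : F0))
    have e : Set.range (fun j : ↥s => (j : F0)) = (s : Set F0) := Subtype.range_coe
    rw [e]
    exact h1

/-! ### `(FG)` from Mathlib -/

/-- **`(FG)`**: the integral closure of `R0[a]` in `F0` is a finite `R0[a]`-module as soon as
`R0[a]` is integrally closed and `F0` is finite separable over a fraction field `K` of `R0[a]`
(Mathlib `IsIntegralClosure.finite`); e.g. `R0` a discrete valuation ring, `a` transcendental over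
`Frac R0` (`R0[a] ≃ R0[X]` is a noetherian UFD), `K = (Frac R0)(a)`. -/
theorem finite_integralClosure_adjoin [IsNoetherianRing R0] (a : F0) (K : Type*) [Field K]
    [Algebra ↥(Algebra.adjoin R0 ({a} : Set F0)) K]
    [IsFractionRing ↥(Algebra.adjoin R0 ({a} : Set F0)) K] [Algebra K F0]
    [IsScalarTower ↥(Algebra.adjoin R0 ({a} : Set F0)) K F0] [FiniteDimensional K F0]
    [Algebra.IsSeparable K F0] [IsIntegrallyClosed ↥(Algebra.adjoin R0 ({a} : Set F0))] :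
    Module.Finite ↥(Algebra.adjoin R0 ({a} : Set F0))
      ↥(integralClosure ↥(Algebra.adjoin R0 ({a} : Set F0)) F0) := by
  have : IsNoetherianRing ↥(Algebra.adjoin R0 ({a} : Set F0)) :=
    isNoetherianRing_adjoin_singleton a
  exact IsIntegralClosure.finite ↥(Algebra.adjoin R0 ({a} : Set F0)) K F0
    ↥(integralClosure ↥(Algebra.adjoin R0 ({a} : Set F0)) F0)

/-! ### `B12` is noetherian -/

/-- **`B12 = B1[1/h]` is a finitely generated `R0`-algebra, hence noetherian.** -/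
theorem isNoetherianRing_IC12 [IsNoetherianRing R0] {h : F0} (hh : h ≠ 0)
    [Module.Finite ↥(Algebra.adjoin R0 ({h} : Set F0))
      ↥(integralClosure ↥(Algebra.adjoin R0 ({h} : Set F0)) F0)] :
    IsNoetherianRing ↥(IC R0 ({h, h⁻¹} : Set F0)) := by
  classical
  obtain ⟨s, hs1, hs2⟩ := exists_gen_IC (R0 := R0) (a := h)
  have hle1 : IC R0 ({h} : Set F0) ≤ IC R0 ({h, h⁻¹} : Set F0) := IC_mono (by simp)
  have key : IC R0 ({h, h⁻¹} : Set F0) = Algebra.adjoin R0 (({h, h⁻¹} : Set F0) ∪ (s : Set F0)) := by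
    apply le_antisymm
    · intro x hx
      obtain ⟨n, hn⟩ := exists_pow_mul_mem_IC hh hx
      have h1 : h ^ n * x ∈ Algebra.adjoin R0 (({h, h⁻¹} : Set F0) ∪ (s : Set F0)) := by
        have := hs2 _ hn
        refine Submodule.span_le (p := Subalgebra.toSubmodule
          (Algebra.adjoin R0 (({h, h⁻¹} : Set F0) ∪ (s : Set F0)))).mpr ?_ this
        rintro _ ⟨k, i, rfl⟩
        show h ^ k * (i : F0) ∈ Algebra.adjoin R0 (({h, h⁻¹} : Set F0) ∪ (s : Set F0))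
        exact mul_mem (pow_mem (Algebra.subset_adjoin (by simp)) k)
          (Algebra.subset_adjoin (Or.inr i.2))
      have h2 : h⁻¹ ^ n ∈ Algebra.adjoin R0 (({h, h⁻¹} : Set F0) ∪ (s : Set F0)) :=
        pow_mem (Algebra.subset_adjoin (by simp)) n
      have e : x = h⁻¹ ^ n * (h ^ n * x) := by
        rw [← mul_assoc, ← mul_pow, inv_mul_cancel₀ hh, one_pow, one_mul]
      rw [e]
      exact mul_mem h2 h1
    · apply Algebra.adjoin_le
      rintro x (hx | hx)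
      · exact subset_IC hx
      · exact hle1 (hs1 x hx)
  have hfg : (IC R0 ({h, h⁻¹} : Set F0)).FG := by
    rw [key]
    exact Subalgebra.fg_def.mpr ⟨_, (Set.toFinite _).union s.finite_toSet, rfl⟩
  have hft : Algebra.FiniteType R0 ↥(IC R0 ({h, h⁻¹} : Set F0)) :=
    (Subalgebra.fg_iff_finiteType _).mp hfg
  exact Algebra.FiniteType.isNoetherianRing R0 _

/-! ### The radical of `q0 B12` in `F0`-language -/

/-- `x ∈ rad (q0 B12)`, stated inside `F0` -/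
def InRad (q0 : R0) (h x : F0) : Prop :=
  x ∈ IC R0 ({h, h⁻¹} : Set F0) ∧
    ∃ k : ℕ, ∃ c ∈ IC R0 ({h, h⁻¹} : Set F0), x ^ k = algebraMap R0 F0 q0 * c

theorem inRad_iff {q0 : R0} {h : F0} (x : ↥(IC R0 ({h, h⁻¹} : Set F0))) :
    InRad q0 h (x : F0) ↔
      x ∈ (Ideal.span {algebraMap R0 ↥(IC R0 ({h, h⁻¹} : Set F0)) q0}).radical := by
  constructor
  · rintro ⟨_, k, c, hc, hk⟩
    refine ⟨k, Ideal.mem_span_singleton'.mpr ⟨⟨c, hc⟩, ?_⟩⟩
    apply Subtype.ext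
    rw [Subalgebra.coe_mul, Subalgebra.coe_pow, hk, mul_comm]
    rfl
  · rintro ⟨k, hk⟩
    obtain ⟨c, hc⟩ := Ideal.mem_span_singleton'.mp hk
    refine ⟨x.2, k, c, c.2, ?_⟩
    have := congrArg (fun w : ↥(IC R0 ({h, h⁻¹} : Set F0)) => (w : F0)) hc
    simp only [Subalgebra.coe_mul, Subalgebra.coe_pow] at this
    rw [← this, mul_comm]
    rfl

theorem InRad.mem {q0 : R0} {h x : F0} (hx : InRad q0 h x) : x ∈ IC R0 ({h, h⁻¹} : Set F0) := hx.1

theorem InRad.add {q0 : R0} {h x y : F0} (hx : InRad q0 h x) (hy : InRad q0 h y) :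
    InRad q0 h (x + y) := by
  have h1 := (inRad_iff (⟨x, hx.1⟩ : ↥(IC R0 ({h, h⁻¹} : Set F0)))).mp hx
  have h2 := (inRad_iff (⟨y, hy.1⟩ : ↥(IC R0 ({h, h⁻¹} : Set F0)))).mp hy
  exact (inRad_iff (⟨x, hx.1⟩ + ⟨y, hy.1⟩ : ↥(IC R0 ({h, h⁻¹} : Set F0)))).mpr (add_mem h1 h2)

theorem InRad.mul_left {q0 : R0} {h x c : F0} (hc : c ∈ IC R0 ({h, h⁻¹} : Set F0))
    (hx : InRad q0 h x) : InRad q0 h (c * x) := by
  have h1 := (inRad_iff (⟨x, hx.1⟩ : ↥(IC R0 ({h, h⁻¹} : Set F0)))).mp hx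
  exact (inRad_iff (⟨c, hc⟩ * ⟨x, hx.1⟩ : ↥(IC R0 ({h, h⁻¹} : Set F0)))).mpr
    (Ideal.mul_mem_left _ _ h1)

theorem inRad_zero (q0 : R0) (h : F0) : InRad q0 h 0 :=
  (inRad_iff (0 : ↥(IC R0 ({h, h⁻¹} : Set F0)))).mpr (zero_mem _)

theorem inRad_q (q0 : R0) (h : F0) : InRad q0 h (algebraMap R0 F0 q0) :=
  ⟨Subalgebra.algebraMap_mem _ q0, 1, 1, one_mem _, by rw [pow_one, mul_one]⟩

/-! ### The section `β` from local triviality, in `F0`-language -/

/-- **(LOC) ⟹ β** (twin of `CechKummer.exists_beta_of_loc` with the maximal ideals taken in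
`B2 = IC R0 {h⁻¹}`). -/
theorem exists_beta_of_loc_field {q0 : R0} {h u : F0} {m : ℕ} {hm : 0 < m}
    (hloc : ∀ 𝔫 : Ideal ↥(IC R0 ({h⁻¹} : Set F0)), 𝔫.IsMaximal →
      ∃ g ∈ Msec R0 h u m hm, ∃ a b : ↥(IC R0 ({h⁻¹} : Set F0)), a ∉ 𝔫 ∧ b ∉ 𝔫 ∧
        InRad q0 h ((a : F0) * g - (b : F0))) :
    ∃ β ∈ Msec R0 h u m hm, InRad q0 h (β - 1) := by
  have hle2 : IC R0 ({h⁻¹} : Set F0) ≤ IC R0 ({h, h⁻¹} : Set F0) := IC_mono (by simp)
  let J : Ideal ↥(IC R0 ({h⁻¹} : Set F0)) :=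
    { carrier := {b | ∃ g ∈ Msec R0 h u m hm, InRad q0 h (g - (b : F0))}
      zero_mem' := ⟨0, zero_mem _, by
        rw [ZeroMemClass.coe_zero, sub_zero]; exact inRad_zero q0 h⟩
      add_mem' := by
        rintro b b' ⟨g, hg, hgb⟩ ⟨g', hg', hgb'⟩
        refine ⟨g + g', add_mem hg hg', ?_⟩
        have e : g + g' - ((b + b' : ↥(IC R0 ({h⁻¹} : Set F0))) : F0) =
            (g - (b : F0)) + (g' - (b' : F0)) := by
          rw [Subalgebra.coe_add]; ring
        rw [e]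
        exact hgb.add hgb'
      smul_mem' := by
        rintro c b ⟨g, hg, hgb⟩
        refine ⟨(c : F0) * g, mul_mem_Msec c.2 hg, ?_⟩
        have e : (c : F0) * g - ((c • b : ↥(IC R0 ({h⁻¹} : Set F0))) : F0) =
            (c : F0) * (g - (b : F0)) := by
          rw [smul_eq_mul, Subalgebra.coe_mul]; ring
        rw [e]
        exact hgb.mul_left (hle2 c.2) }
  have hJ : J = ⊤ := by
    by_contra hne
    obtain ⟨𝔫, h𝔫, hJ𝔫⟩ := Ideal.exists_le_maximal J hne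
    obtain ⟨g, hg, a, b, _, hb, hab⟩ := hloc 𝔫 h𝔫
    exact hb (hJ𝔫 ⟨(a : F0) * g, mul_mem_Msec a.2 hg, hab⟩)
  have h1 : (1 : ↥(IC R0 ({h⁻¹} : Set F0))) ∈ J := by rw [hJ]; trivial
  obtain ⟨β, hβ, hβ1⟩ := h1
  exact ⟨β, hβ, by rwa [OneMemClass.coe_one] at hβ1⟩

/-! ### Assembly -/

open Fermat.Agent.GL.CechKummer in
/-- **Čech–Kummer in field form.**  `R0` noetherian, `F0 ⊇ R0` a field, `h ≠ 0`,
`B1 = IC R0 {h}`, `B2 = IC R0 {h⁻¹}` finite over `R0[h]`, `R0[h⁻¹]`, `B12 = IC R0 {h, h⁻¹}`,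
`q0` not a unit of `B12`, `q0 ∣ 1 + m m''`.  If `u ∈ B1`, `u ≡ 1` modulo the radical of `q0 B12`,
and the line bundle `M = {f ∈ B12 | f ^ m u ∈ B2}` is locally trivial modulo the radical at every
maximal ideal of `B2` (`hloc`), then `u = g / s ^ m` with `s ≠ 0` and `g ∈ B1 ∩ B2`, `g ≡ 1`;
in particular `g` lies in every valuation ring of `F0` containing `R0`. -/
theorem exists_root_of_loc [IsNoetherianRing R0] {h : F0} (hh : h ≠ 0)
    [Module.Finite ↥(Algebra.adjoin R0 ({h} : Set F0))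
      ↥(integralClosure ↥(Algebra.adjoin R0 ({h} : Set F0)) F0)]
    [Module.Finite ↥(Algebra.adjoin R0 ({h⁻¹} : Set F0))
      ↥(integralClosure ↥(Algebra.adjoin R0 ({h⁻¹} : Set F0)) F0)]
    (q0 : R0) (hq : ¬ InRad q0 h 1) {m m'' : ℕ} (hm : 0 < m)
    (hN : q0 ∣ ((1 + m * m'' : ℕ) : R0))
    {u : F0} (hu : u ∈ IC R0 ({h} : Set F0)) (hu1 : InRad q0 h (u - 1))
    (hloc : ∀ 𝔫 : Ideal ↥(IC R0 ({h⁻¹} : Set F0)), 𝔫.IsMaximal →
      ∃ g ∈ Msec R0 h u m hm, ∃ a b : ↥(IC R0 ({h⁻¹} : Set F0)), a ∉ 𝔫 ∧ b ∉ 𝔫 ∧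
        InRad q0 h ((a : F0) * g - (b : F0))) :
    ∃ s g : F0, s ≠ 0 ∧ g ≠ 0 ∧ s ^ m * u = g ∧ s ∈ IC R0 ({h} : Set F0) ∧
      s ∈ Msec R0 h u m hm ∧ InRad q0 h (s - 1) ∧
      g ∈ IC R0 ({h} : Set F0) ∧ g ∈ IC R0 ({h⁻¹} : Set F0) ∧ InRad q0 h (g - 1) ∧
      ∀ O : ValuationSubring F0, (∀ r : R0, algebraMap R0 F0 r ∈ O) → g ∈ O := by
  classical
  have hle1 : IC R0 ({h} : Set F0) ≤ IC R0 ({h, h⁻¹} : Set F0) := IC_mono (by simp)
  have hle2 : IC R0 ({h⁻¹} : Set F0) ≤ IC R0 ({h, h⁻¹} : Set F0) := IC_mono (by simp)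
  have hu12 : u ∈ IC R0 ({h, h⁻¹} : Set F0) := hle1 hu
  have hu0 : u ≠ 0 := by
    rintro rfl
    apply hq
    have := hu1
    rw [zero_sub] at this
    have h2 := this.mul_left (c := -1) (neg_mem (one_mem _))
    simpa using h2
  have hnoeth : IsNoetherianRing ↥(IC R0 ({h, h⁻¹} : Set F0)) := isNoetherianRing_IC12 hh
  -- the ambient ring and its data
  set B12 : Subalgebra R0 F0 := IC R0 ({h, h⁻¹} : Set F0) with hB12
  let B1' : Subalgebra R0 ↥B12 := (IC R0 ({h} : Set F0)).comap B12.val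
  let B2' : Subalgebra R0 ↥B12 := (IC R0 ({h⁻¹} : Set F0)).comap B12.val
  let M' : Submodule R0 ↥B12 := (Msec R0 h u m hm).comap B12.val.toLinearMap
  let 𝔯 : Ideal ↥B12 := (Ideal.span {algebraMap R0 ↥B12 q0}).radical
  have hmemB1 : ∀ x : ↥B12, x ∈ B1' ↔ (x : F0) ∈ IC R0 ({h} : Set F0) := fun _ => Iff.rfl
  have hmemB2 : ∀ x : ↥B12, x ∈ B2' ↔ (x : F0) ∈ IC R0 ({h⁻¹} : Set F0) := fun _ => Iff.rfl
  have hmemM : ∀ x : ↥B12, x ∈ M' ↔ (x : F0) ∈ Msec R0 h u m hm := fun _ => Iff.rfl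
  have hmem𝔯 : ∀ x : ↥B12, x ∈ 𝔯 ↔ InRad q0 h (x : F0) := fun x => (inRad_iff x).symm
  -- generators
  obtain ⟨s1, hs1, hs1span⟩ := exists_gen_IC (R0 := R0) (a := h)
  obtain ⟨s2, hs2, hs2span⟩ := exists_fg_Msec (R0 := R0) (hm := hm) hh hu0 hu12
  let hB : ↥B12 := ⟨h, subset_IC (by simp)⟩
  let hinvB : ↥B12 := ⟨h⁻¹, subset_IC (by simp)⟩
  let uB : ↥B12 := ⟨u, hu12⟩
  let e1 : ↥s1 → ↥B12 := fun i => ⟨(i : F0), hle1 (hs1 _ i.2)⟩
  let f : ↥s2 → ↥B12 := fun j => ⟨(j : F0), (hs2 _ j.2).1⟩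
  obtain ⟨a', ha'⟩ := exists_pow_mul_mem_IC_family (R0 := R0) hh (fun j : ↥s2 => (j : F0))
    (fun j => (hs2 _ j.2).1)
  -- the section `β`
  obtain ⟨β, hβ, hβ1⟩ := exists_beta_of_loc_field hloc
  have h𝔯top : 𝔯 ≠ ⊤ := by
    intro htop
    apply hq
    have : (1 : ↥B12) ∈ 𝔯 := by rw [htop]; trivial
    have := (hmem𝔯 1).mp this
    rwa [OneMemClass.coe_one] at this
  obtain ⟨e, he⟩ := Ideal.exists_radical_pow_le_of_fg (Ideal.span {algebraMap R0 ↥B12 q0})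
    (IsNoetherian.noetherian _)
  -- apply the Čech–Kummer lemma
  obtain ⟨s, hsB1, hsM, hs𝔯⟩ := exists_section B1' B2' M'
    (fun b hb f hf => (hmemM _).mpr (by
      rw [Subalgebra.coe_mul]; exact mul_mem_Msec ((hmemB2 b).mp hb) ((hmemM f).mp hf)))
    q0 𝔯 (Ideal.le_radical (Ideal.mem_span_singleton_self _)) e he m m''
    (by
      obtain ⟨c, hc⟩ := hN
      have e1 : ((1 + m * m'' : ℕ) : ↥B12) = algebraMap R0 ↥B12 q0 * algebraMap R0 ↥B12 c := by
        rw [← map_mul, ← hc, map_natCast]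
      rw [e1]
      exact Ideal.mul_mem_right _ _ (Ideal.le_radical (Ideal.mem_span_singleton_self _)))
    uB ((hmemB1 uB).mpr hu)
    ((hmem𝔯 (uB - 1)).mpr (by
      rw [Subalgebra.coe_sub, OneMemClass.coe_one]; exact hu1))
    (fun f hf => (hmemB2 _).mpr (by
      rw [Subalgebra.coe_mul, Subalgebra.coe_pow]; exact ((hmemM f).mp hf).2))
    hB hinvB (Subtype.ext (by
      rw [Subalgebra.coe_mul, OneMemClass.coe_one]; exact mul_inv_cancel₀ hh))
    ((hmemB1 hB).mpr (subset_IC (R0 := R0) (Set.mem_singleton h)))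
    ((hmemB2 hinvB).mpr (subset_IC (R0 := R0) (Set.mem_singleton h⁻¹)))
    e1 f (fun i => (hmemB1 _).mpr (hs1 _ i.2))
    (by
      intro x hx
      apply mem_span_of_coe_mem_span
      refine Submodule.span_mono ?_ (hs1span _ ((hmemB1 x).mp hx))
      rintro _ ⟨k, i, rfl⟩
      exact ⟨hB ^ k * e1 i, ⟨k, i, rfl⟩, by rw [Subalgebra.coe_mul, Subalgebra.coe_pow]⟩)
    (fun j => (hmemM _).mpr (hs2 _ j.2))
    (by
      intro y hy
      apply mem_span_of_coe_mem_span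
      refine Submodule.span_mono ?_ (hs2span _ ((hmemM y).mp hy))
      rintro _ ⟨k, j, rfl⟩
      exact ⟨hinvB ^ k * f j, ⟨k, j, rfl⟩, by rw [Subalgebra.coe_mul, Subalgebra.coe_pow]⟩)
    a' (fun j => (hmemB1 _).mpr (by
      rw [Subalgebra.coe_mul, Subalgebra.coe_pow]; exact ha' j))
    (by
      intro z
      obtain ⟨n, y, hy, hzy⟩ := exists_eq_pow_mul_Msec (R0 := R0) (hm := hm) hh hu12 z.2
      refine ⟨n, ⟨y, hy.1⟩, (hmemM _).mpr hy, Subtype.ext ?_⟩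
      rw [Subalgebra.coe_mul, Subalgebra.coe_pow]
      exact hzy)
    (by
      intro 𝔫 h𝔫
      refine ⟨⟨β, hβ.1⟩, (hmemM _).mpr hβ, 1, 1, ?_, ?_, ?_⟩
      · exact fun h1 => h𝔫.ne_top ((Ideal.eq_top_iff_one _).mpr h1)
      · exact fun h1 => h𝔫.ne_top ((Ideal.eq_top_iff_one _).mpr h1)
      · refine (hmem𝔯 _).mpr ?_
        simpa using hβ1)
  -- conclusions
  have hs1' : (s : F0) ∈ IC R0 ({h} : Set F0) := (hmemB1 s).mp hsB1
  have hsM' : (s : F0) ∈ Msec R0 h u m hm := (hmemM s).mp hsM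
  have hs𝔯' : InRad q0 h ((s : F0) - 1) := by
    have := (hmem𝔯 (s - 1)).mp hs𝔯
    rwa [Subalgebra.coe_sub, OneMemClass.coe_one] at this
  have hg1 : (s : F0) ^ m * u ∈ IC R0 ({h} : Set F0) := mul_mem (pow_mem hs1' m) hu
  have hg2 : (s : F0) ^ m * u ∈ IC R0 ({h⁻¹} : Set F0) := hsM'.2
  have hg𝔯 : s ^ m * uB - 1 ∈ 𝔯 := by
    have hu𝔯 : uB - 1 ∈ 𝔯 := (hmem𝔯 (uB - 1)).mpr (by
      rw [Subalgebra.coe_sub, OneMemClass.coe_one]; exact hu1)
    rw [← Ideal.Quotient.eq_zero_iff_mem] at hs𝔯 hu𝔯 ⊢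
    rw [map_sub, map_one, sub_eq_zero] at hs𝔯 hu𝔯
    rw [map_sub, map_mul, map_pow, hs𝔯, hu𝔯, map_one, one_pow, mul_one, sub_self]
  have hg𝔯' : InRad q0 h ((s : F0) ^ m * u - 1) := by
    have := (hmem𝔯 (s ^ m * uB - 1)).mp hg𝔯
    rwa [Subalgebra.coe_sub, Subalgebra.coe_mul, Subalgebra.coe_pow, OneMemClass.coe_one] at this
  have hg0 : (s : F0) ^ m * u ≠ 0 := by
    intro h0
    apply hq
    rw [h0, zero_sub] at hg𝔯'
    have h2 := hg𝔯'.mul_left (c := -1) (neg_mem (one_mem _))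
    simpa using h2
  refine ⟨(s : F0), (s : F0) ^ m * u, ?_, hg0, rfl, hs1', hsM', hs𝔯', hg1, hg2, hg𝔯', ?_⟩
  · rintro h0
    apply hg0
    rw [h0, zero_pow hm.ne', zero_mul]
  · intro O hO
    rcases O.mem_or_inv_mem h with hO1 | hO1
    · exact IC_le_valuationSubring O hO (by rintro x rfl; exact hO1) hg1
    · exact IC_le_valuationSubring O hO (by rintro x rfl; exact hO1) hg2
end Fermat.Agent.GL.CechKummerField
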