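/-
GATE-L / HYBRID bridge (helper35): **`hLam` from "the divisor of `y` is off the singular tubes"**.

Setting of helper33's `claim2_core_fam` / helper30's `claim2_core`: `K` algebraically closed with a
valuation ring `A`, `F/K` a function field, `W i` a finite family of valuation rings of `F` above
`A` with an abstract reduction `rd : F → κ` (`ResFam`), `P : ChartPair k κ` the two affine charts of
the special fibre (`P.Bt` the chart `t ≠ ∞`, `P.Binf` the chart `t ≠ 0`), `P.T n` the sections with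
pole order `≤ n` along `t = ∞`, and the hypothesis `hT` that `P.T n` receives the reductions of
`Lfib K t n ∩ ⋂ W i`.

The ONE non-generic input of Claim 2 is

  `hLam : ∀ b x, (∀ i, x ∈ W i) → x ^ m * y ∈ Lfib K t (m * b) → rd x ∈ P.T b`

(the reduction of `L(D_y + b (t)_∞)` consists of honest sections of the special fibre).  In GATE-K it
came from the node count (`GlueAbs`).  Here it is derived, with NO count and for ANY kind of
singularities of the special fibre (any number of branches, non-seminormal, ...), from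

* `hcond` : an ideal `𝔠` of the chart algebra `C` killing `m`-th roots: `c ∈ 𝔠`, `z ^ m ∈ C` ⟹
  `c * z ∈ C` (true for the conductor of `C` in its normalisation);
* `OffTube` : for every maximal ideal `𝔫 ⊇ 𝔠` of `C` (a singular point of the fibre) and every
  place `v` on the chart with `ord_v y > 0` there is a function `f ∈ ⋂ W i`, regular on the chart,
  with `f(v) = 0` and `rd f ∉ 𝔫` — i.e. `v` does not reduce to the singular point `𝔫`.

`OffTube` is exactly what MOVE over the unramified base delivers (board 2508 / 2542): the divisor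
of the Kummer generator has no component through the crossing points.

Main statements: `mem_of_forall_maximal` (algebra), `rd_mem_chart_of_offTube` (one chart),
`hLam_of_offTube` (both charts, the `hLam` of `claim2_core_fam`), `exists_lift_offTube`
(the normalisation `u ↦ u β₀^{-m}`).
-/
import Mathlib
import Fermat.Agent.GK.Lattice.ResFam
import Fermat.Agent.GK.Core.TwistLt
import Fermat.Agent.GJ.J1.PlaceLattice

set_option autoImplicit false

noncomputable section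

open AlgebraicCurve

namespace Fermat.Agent.GL.HLam

open Fermat.Agent.S24 Fermat.Agent.GJ.J1 Fermat.Agent.GJ.J1.PlaceLattice
open Fermat.Agent.GK.Lattice Fermat.Agent.GK.Core.Twist

/-! ### Algebra: membership in a subalgebra can be tested at the maximal ideals -/

section Algebra

variable {k κ : Type*} [Field k] [CommRing κ] [Algebra k κ]

/-- If for every maximal ideal `𝔫` of `C` some `s ∈ C ∖ 𝔫` multiplies `w` into `C`, then
`w ∈ C`. -/
theorem mem_of_forall_maximal (C : Subalgebra k κ) (w : κ)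
    (H : ∀ 𝔫 : Ideal C, 𝔫.IsMaximal → ∃ s : C, s ∉ 𝔫 ∧ (s : κ) * w ∈ C) : w ∈ C := by
  let I : Ideal C :=
    { carrier := {s | (s : κ) * w ∈ C}
      zero_mem' := by
        show ((0 : C) : κ) * w ∈ C
        rw [ZeroMemClass.coe_zero, zero_mul]
        exact C.zero_mem
      add_mem' := by
        intro a b ha hb
        show ((a + b : C) : κ) * w ∈ C
        rw [Subalgebra.coe_add, add_mul]
        exact C.add_mem ha hb
      smul_mem' := by
        intro c a ha
        show ((c • a : C) : κ) * w ∈ C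
        rw [smul_eq_mul, Subalgebra.coe_mul, mul_assoc]
        exact C.mul_mem c.2 ha }
  by_contra hw
  have hI : I ≠ ⊤ := by
    intro h
    have h1 : (1 : C) ∈ I := by rw [h]; exact Submodule.mem_top
    have h2 : ((1 : C) : κ) * w ∈ C := h1
    rw [OneMemClass.coe_one, one_mul] at h2
    exact hw h2
  obtain ⟨𝔫, h𝔫, hle⟩ := Ideal.exists_le_maximal I hI
  obtain ⟨s, hs, hsw⟩ := H 𝔫 h𝔫
  exact hs (hle hsw)

end Algebra

variable {K F : Type*} [Field K] [Field F] [Algebra K F]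
variable {k κ : Type*} [Field k] [CommRing κ] [Algebra k κ]
variable {ι : Type*}
variable {A : ValuationSubring K} {W : ι → ValuationSubring F} {π : A →+* k} {rd : F → κ}

/-- `x` is regular at every place where the chart function `τ` is regular. -/
def RegOn (τ x : F) : Prop := ∀ v : Place K F, 0 ≤ v.ord τ → 0 ≤ v.ord x

section RegOn

theorem RegOn.mul {τ x y : F} (hx : RegOn (K := K) τ x) (hy : RegOn (K := K) τ y) :
    RegOn (K := K) τ (x * y) := by
  intro v hv
  rw [ord_nonneg_iff_mem]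
  exact v.toValuationSubring.mul_mem _ _ ((ord_nonneg_iff_mem v x).mp (hx v hv))
    ((ord_nonneg_iff_mem v y).mp (hy v hv))

theorem RegOn.one {τ : F} : RegOn (K := K) τ (1 : F) := by
  intro v _
  rw [ord_nonneg_iff_mem]
  exact v.toValuationSubring.one_mem

theorem RegOn.pow {τ x : F} (hx : RegOn (K := K) τ x) (n : ℕ) : RegOn (K := K) τ (x ^ n) := by
  intro v hv
  rw [ord_nonneg_iff_mem]
  exact v.toValuationSubring.pow_mem ((ord_nonneg_iff_mem v x).mp (hx v hv)) n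

theorem RegOn.prod {J : Type*} {τ : F} (s : Finset J) (f : J → F)
    (hf : ∀ j ∈ s, RegOn (K := K) τ (f j)) : RegOn (K := K) τ (∏ j ∈ s, f j) := by
  intro v hv
  rw [ord_nonneg_iff_mem]
  exact Subring.prod_mem v.toValuationSubring.toSubring
    fun j hj => (ord_nonneg_iff_mem v (f j)).mp (hf j hj v hv)

end RegOn

/-! ### Reduction of products -/

section ResFamLemmas

variable (h : ResFam A W π rd)
include h

theorem rd_pow' {x : F} (hx : ∀ i, x ∈ W i) (n : ℕ) : rd (x ^ n) = rd x ^ n := by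
  induction n with
  | zero => rw [pow_zero, pow_zero, h.rd_one]
  | succ n ih =>
    rw [pow_succ, pow_succ, h.rd_mul _ _ (fun i => (W i).pow_mem (hx i) n) hx, ih]

theorem rd_prod' {J : Type*} (s : Finset J) (f : J → F) (hf : ∀ j ∈ s, ∀ i, f j ∈ W i) :
    rd (∏ j ∈ s, f j) = ∏ j ∈ s, rd (f j) := by
  classical
  induction s using Finset.induction_on with
  | empty => rw [Finset.prod_empty, Finset.prod_empty, h.rd_one]
  | insert a s ha ih =>
    have hs : ∀ i, ∏ j ∈ s, f j ∈ W i := fun i =>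
      Subring.prod_mem (W i).toSubring fun j hj => hf j (Finset.mem_insert_of_mem hj) i
    rw [Finset.prod_insert ha, Finset.prod_insert ha,
      h.rd_mul _ _ (hf a (Finset.mem_insert_self a s)) hs,
      ih fun j hj => hf j (Finset.mem_insert_of_mem hj)]

/-- `val_i (y - 1) < 1` for all `i` gives `rd y = 1`. -/
theorem rd_eq_one_of_val {y : F} (hy : ∀ i, (W i).valuation (y - 1) < 1) :
    (∀ i, y ∈ W i) ∧ rd y = 1 := by
  have hy1 : ∀ i, y - 1 ∈ W i := fun i =>
    (ValuationSubring.valuation_le_one_iff _ _).mp (hy i).le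
  have hyW : ∀ i, y ∈ W i := fun i => by
    have := (W i).add_mem _ _ (hy1 i) (W i).one_mem
    rwa [sub_add_cancel] at this
  refine ⟨hyW, ?_⟩
  have h0 : rd (y - 1) = 0 := (h.rd_ker _ hy1).mpr hy
  have h1 := h.rd_add (y - 1) 1 hy1 (fun i => (W i).one_mem)
  rw [sub_add_cancel, h0, h.rd_one, zero_add] at h1
  exact h1

end ResFamLemmas

/-! ### One chart -/

section Chart

/-- killing one pole: `ord_v (f ^ n * x) ≥ 0` if `ord_v f > 0` and `n ≥ - ord_v x`. -/
theorem ord_pow_mul_nonneg (v : Place K F) {f x : F} (hf : 0 < v.ord f) (hx : v.ord x < 0) :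
    0 ≤ v.ord (f ^ (-(v.ord x)).toNat * x) := by
  have hf0 : f ≠ 0 := by
    rintro rfl
    rw [v.ord_zero] at hf
    exact lt_irrefl _ hf
  have hx0 : x ≠ 0 := by
    rintro rfl
    rw [v.ord_zero] at hx
    exact lt_irrefl _ hx
  rw [v.ord_mul (pow_ne_zero _ hf0) hx0, ord_pow']
  have h1 : ((-(v.ord x)).toNat : ℤ) = -(v.ord x) := Int.toNat_of_nonneg (by omega)
  rw [h1]
  nlinarith

/-- **Membership on one chart.**  `τ` the chart function, `C` the chart algebra of the special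
fibre, receiving the reductions of the integral functions regular on the chart. -/
theorem rd_mem_chart_of_offTube (x₀ : F) [IsGen K x₀] (h : ResFam A W π rd)
    (τ : F) (C : Subalgebra k κ)
    (hC : ∀ x : F, (∀ i, x ∈ W i) → RegOn (K := K) τ x → rd x ∈ C)
    (m : ℕ) (𝔠 : Ideal C) (hcond : ∀ c ∈ 𝔠, ∀ z : κ, z ^ m ∈ C → (c : κ) * z ∈ C)
    {x : F} (hxW : ∀ i, x ∈ W i) (hpow : rd x ^ m ∈ C)
    (hoff : ∀ 𝔫 : Ideal C, 𝔫.IsMaximal → 𝔠 ≤ 𝔫 → ∀ v : Place K F, 0 ≤ v.ord τ → v.ord x < 0 →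
      ∃ f : F, (∀ i, f ∈ W i) ∧ RegOn (K := K) τ f ∧ 0 < v.ord f ∧
        ∀ hf : rd f ∈ C, (⟨rd f, hf⟩ : C) ∉ 𝔫) :
    rd x ∈ C := by
  classical
  refine mem_of_forall_maximal C (rd x) fun 𝔫 h𝔫 => ?_
  by_cases hle : 𝔠 ≤ 𝔫
  · -- a singular point: kill the poles of `x` on the chart by functions not vanishing at `𝔫`
    have hfin : {v : Place K F | 0 ≤ v.ord τ ∧ v.ord x < 0}.Finite :=
      (finite_poles' x₀ x).subset fun v hv => hv.2
    have hch : ∀ v : Place K F, ∃ f : F, (0 ≤ v.ord τ ∧ v.ord x < 0) →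
        (∀ i, f ∈ W i) ∧ RegOn (K := K) τ f ∧ 0 < v.ord f ∧
          ∀ hf : rd f ∈ C, (⟨rd f, hf⟩ : C) ∉ 𝔫 := by
      intro v
      by_cases hv : 0 ≤ v.ord τ ∧ v.ord x < 0
      · obtain ⟨f, hf⟩ := hoff 𝔫 h𝔫 hle v hv.1 hv.2
        exact ⟨f, fun _ => hf⟩
      · exact ⟨0, fun h' => absurd h' hv⟩
    choose f hf using hch
    set Pz : Finset (Place K F) := hfin.toFinset with hPz
    have hmemPz : ∀ v, v ∈ Pz ↔ (0 ≤ v.ord τ ∧ v.ord x < 0) := fun v => by
      rw [hPz, Set.Finite.mem_toFinset]; rfl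
    set n : Place K F → ℕ := fun v => (-(v.ord x)).toNat with hn
    set s : F := ∏ v ∈ Pz, f v ^ n v with hs
    have hfW : ∀ v ∈ Pz, ∀ i, f v ∈ W i := fun v hv => (hf v ((hmemPz v).mp hv)).1
    have hfR : ∀ v ∈ Pz, RegOn (K := K) τ (f v) := fun v hv => (hf v ((hmemPz v).mp hv)).2.1
    have hfpos : ∀ v ∈ Pz, 0 < v.ord (f v) := fun v hv => (hf v ((hmemPz v).mp hv)).2.2.1
    have hf𝔫 : ∀ v ∈ Pz, ∀ hfC : rd (f v) ∈ C, (⟨rd (f v), hfC⟩ : C) ∉ 𝔫 :=
      fun v hv => (hf v ((hmemPz v).mp hv)).2.2.2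
    have hpowW : ∀ v ∈ Pz, ∀ i, f v ^ n v ∈ W i := fun v hv i => (W i).pow_mem (hfW v hv i) (n v)
    have hsW : ∀ i, s ∈ W i := fun i =>
      Subring.prod_mem (W i).toSubring fun v hv => hpowW v hv i
    have hsR : RegOn (K := K) τ s :=
      RegOn.prod Pz _ fun v hv => (hfR v hv).pow (n v)
    -- `s * x` is regular on the chart
    have hsxR : RegOn (K := K) τ (s * x) := by
      intro v hv
      by_cases hxv : 0 ≤ v.ord x
      · rw [ord_nonneg_iff_mem]
        exact v.toValuationSubring.mul_mem _ _ ((ord_nonneg_iff_mem v s).mp (hsR v hv))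
          ((ord_nonneg_iff_mem v x).mp hxv)
      · have hxv' : v.ord x < 0 := not_le.mp hxv
        have hvPz : v ∈ Pz := (hmemPz v).mpr ⟨hv, hxv'⟩
        have e : s * x = (∏ v' ∈ Pz.erase v, f v' ^ n v') * (f v ^ n v * x) := by
          rw [hs, ← Finset.mul_prod_erase Pz (fun v' => f v' ^ n v') hvPz]
          ring
        rw [e, ord_nonneg_iff_mem]
        refine v.toValuationSubring.mul_mem _ _ ?_ ?_
        · rw [← ord_nonneg_iff_mem]
          exact (RegOn.prod (Pz.erase v) _ fun v' hv' =>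
            (hfR v' (Finset.mem_of_mem_erase hv')).pow (n v')) v hv
        · rw [← ord_nonneg_iff_mem]
          exact ord_pow_mul_nonneg v (hfpos v hvPz) hxv'
    -- the reduction of `s` is not in `𝔫`
    have hrdf : ∀ v ∈ Pz, rd (f v) ∈ C := fun v hv => hC _ (hfW v hv) (hfR v hv)
    have hrds : rd s = ∏ v ∈ Pz, rd (f v) ^ n v := by
      rw [hs, rd_prod' h Pz _ hpowW]
      exact Finset.prod_congr rfl fun v hv => rd_pow' h (hfW v hv) (n v)
    let g : Place K F → C := fun v => if hv : v ∈ Pz then ⟨rd (f v), hrdf v hv⟩ else 1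
    have hg𝔫 : ∀ v ∈ Pz, g v ∉ 𝔫 := fun v hv => by
      simp only [g, dif_pos hv]
      exact hf𝔫 v hv (hrdf v hv)
    have hprime : 𝔫.IsPrime := h𝔫.isPrime
    have hS𝔫 : (∏ v ∈ Pz, g v ^ n v) ∉ 𝔫 := by
      intro hmem
      obtain ⟨v, hv, hvm⟩ := (Ideal.IsPrime.prod_mem_iff).mp hmem
      exact hg𝔫 v hv (hprime.mem_of_pow_mem _ hvm)
    have hcoe : ((∏ v ∈ Pz, g v ^ n v : C) : κ) = rd s := by
      rw [hrds]
      show C.val (∏ v ∈ Pz, g v ^ n v) = _
      rw [map_prod]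
      refine Finset.prod_congr rfl fun v hv => ?_
      rw [map_pow]
      simp only [g, dif_pos hv, Subalgebra.coe_val]
    refine ⟨∏ v ∈ Pz, g v ^ n v, hS𝔫, ?_⟩
    rw [hcoe, ← h.rd_mul s x hsW hxW]
    exact hC _ (fun i => (W i).mul_mem _ _ (hsW i) (hxW i)) hsxR
  · -- a point off the conductor
    obtain ⟨c, hc𝔠, hc𝔫⟩ := SetLike.not_le_iff_exists.mp hle
    exact ⟨c, hc𝔫, hcond c hc𝔠 (rd x) hpow⟩

end Chart

/-! ### Both charts: the `hLam` hypothesis of Claim 2 -/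

section HLam

/-- the total pole order of `x`. -/
def poleSum (x₀ : F) [IsGen K x₀] (x : F) : ℕ :=
  ∑ v ∈ (finite_poles' (K := K) x₀ x).toFinset, (-(v.ord x)).toNat

theorem neg_ord_le_poleSum (x₀ : F) [IsGen K x₀] (x : F) (v : Place K F) :
    -(v.ord x) ≤ (poleSum (K := K) x₀ x : ℤ) := by
  by_cases hv : v.ord x < 0
  · have hmem : v ∈ (finite_poles' (K := K) x₀ x).toFinset := by
      rw [Set.Finite.mem_toFinset]; exact hv
    have h1 : (-(v.ord x)).toNat ≤ poleSum (K := K) x₀ x :=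
      Finset.single_le_sum (f := fun v : Place K F => (-(v.ord x)).toNat)
        (fun _ _ => Nat.zero_le _) hmem
    have h2 : ((-(v.ord x)).toNat : ℤ) = -(v.ord x) := Int.toNat_of_nonneg (by omega)
    have h3 : ((-(v.ord x)).toNat : ℤ) ≤ (poleSum (K := K) x₀ x : ℤ) := by exact_mod_cast h1
    omega
  · have : (0 : ℤ) ≤ (poleSum (K := K) x₀ x : ℤ) := Int.natCast_nonneg _
    omega

/-- a function regular on the finite chart lies in some `Lfib K t n`. -/
theorem exists_mem_Lfib_of_regOn [IsAlgClosed K] (x₀ : F) [IsGen K x₀] {t : F}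
    (htK : Transcendental K t) {x : F} (hx0 : x ≠ 0) (hx : RegOn (K := K) t x) :
    x ∈ Lfib K t ((poleSum (K := K) x₀ x : ℕ) : ℤ) := by
  rw [mem_Lfib_iff_ord x₀ htK _ hx0]
  intro v
  refine ⟨hx v, fun hv => ?_⟩
  have h1 := neg_ord_le_poleSum (K := K) x₀ x v
  have h2 : (0 : ℤ) ≤ (poleSum (K := K) x₀ x : ℤ) := Int.natCast_nonneg _
  nlinarith

/-- the finite chart receives the reductions of the integral functions regular on it. -/
theorem rd_mem_Bt_of_regOn [IsAlgClosed K] (x₀ : F) [IsGen K x₀] (h : ResFam A W π rd) {t : F}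
    (htK : Transcendental K t) (P : ChartPair k κ)
    (hT : ∀ (n : ℕ) (x : F), (∀ i, x ∈ W i) → x ∈ Lfib K t (n : ℤ) → rd x ∈ P.T n)
    (x : F) (hxW : ∀ i, x ∈ W i) (hx : RegOn (K := K) t x) : rd x ∈ P.Bt := by
  rcases eq_or_ne x 0 with rfl | hx0
  · rw [h.rd_zero]; exact P.Bt.zero_mem
  · exact (hT _ x hxW (exists_mem_Lfib_of_regOn x₀ htK hx0 hx)).1

/-- `rd t⁻¹ = sinv`. -/
theorem rd_inv_eq_sinv (h : ResFam A W π rd) {t : F} (ht0 : t ≠ 0) (htW : ∀ i, t ∈ W i)
    (htiW : ∀ i, t⁻¹ ∈ W i) (P : ChartPair k κ) (hs : P.s = rd t) : rd t⁻¹ = P.sinv := by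
  have h1 : P.s * rd t⁻¹ = 1 := by
    rw [hs, ← h.rd_mul t t⁻¹ htW htiW, mul_inv_cancel₀ ht0, h.rd_one]
  calc rd t⁻¹ = (P.s * P.sinv) * rd t⁻¹ := by rw [P.s_mul_sinv, one_mul]
    _ = P.sinv * (P.s * rd t⁻¹) := by ring
    _ = P.sinv := by rw [h1, mul_one]

/-- the chart at infinity receives the reductions of the integral functions regular on it. -/
theorem rd_mem_Binf_of_regOn [IsAlgClosed K] (x₀ : F) [IsGen K x₀] (h : ResFam A W π rd) {t : F}
    (htK : Transcendental K t) (htW : ∀ i, t ∈ W i)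
    (P : ChartPair k κ) (hs : P.s = rd t)
    (hT : ∀ (n : ℕ) (x : F), (∀ i, x ∈ W i) → x ∈ Lfib K t (n : ℤ) → rd x ∈ P.T n)
    (x : F) (hxW : ∀ i, x ∈ W i) (hx : RegOn (K := K) t⁻¹ x) : rd x ∈ P.Binf := by
  rcases eq_or_ne x 0 with rfl | hx0
  · rw [h.rd_zero]; exact P.Binf.zero_mem
  have ht0 : t ≠ 0 := by
    rintro rfl
    exact htK (isAlgebraic_zero)
  set n := poleSum (K := K) x₀ x with hn
  have hxt0 : x * t ^ n ≠ 0 := mul_ne_zero hx0 (pow_ne_zero _ ht0)
  have hmem : x * t ^ n ∈ Lfib K t ((n : ℕ) : ℤ) := by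
    rw [mem_Lfib_iff_ord x₀ htK _ hxt0]
    intro v
    have hord : v.ord (x * t ^ n) = v.ord x + n * v.ord t := by
      rw [v.ord_mul hx0 (pow_ne_zero _ ht0), ord_pow']
    have hpole := neg_ord_le_poleSum (K := K) x₀ x v
    have hn0 : (0 : ℤ) ≤ (n : ℤ) := Int.natCast_nonneg _
    rw [hord]
    refine ⟨fun hv => ?_, fun hv => ?_⟩
    · rcases hv.eq_or_lt with h0 | hpos
      · have : 0 ≤ v.ord x := hx v (by rw [v.ord_inv, ← h0]; simp)
        rw [← h0]; omega
      · nlinarith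
    · have : 0 ≤ v.ord x := hx v (by rw [v.ord_inv]; omega)
      omega
  have hxtW : ∀ i, x * t ^ n ∈ W i := fun i => (W i).mul_mem _ _ (hxW i) ((W i).pow_mem (htW i) n)
  have h2 := (hT n _ hxtW hmem).2
  rw [h.rd_mul x (t ^ n) hxW (fun i => (W i).pow_mem (htW i) n), rd_pow' h htW, ← hs] at h2
  have e : rd x * P.s ^ n * P.sinv ^ n = rd x := by
    rw [mul_assoc, ← mul_pow, P.s_mul_sinv, one_pow, mul_one]
  rwa [e] at h2

/-- **`hLam` from `OffTube`.**  The divisor of `y ≡ 1` avoids the singular points of both charts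
of the special fibre ⟹ the reduction of `L(D_y + b (t)_∞) ∩ ⋂ W i` lies in `P.T b`. -/
theorem hLam_of_offTube [IsAlgClosed K] (x₀ : F) [IsGen K x₀] (h : ResFam A W π rd) {t : F}
    (htK : Transcendental K t) (htW : ∀ i, t ∈ W i)
    (htiW : ∀ i, t⁻¹ ∈ W i) (P : ChartPair k κ) (hs : P.s = rd t)
    (hT : ∀ (n : ℕ) (x : F), (∀ i, x ∈ W i) → x ∈ Lfib K t (n : ℤ) → rd x ∈ P.T n)
    {m : ℕ} (hm : 0 < m) {y : F} (hy1 : ∀ i, (W i).valuation (y - 1) < 1)
    (𝔠t : Ideal P.Bt) (hct : ∀ c ∈ 𝔠t, ∀ z : κ, z ^ m ∈ P.Bt → (c : κ) * z ∈ P.Bt)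
    (𝔠i : Ideal P.Binf) (hci : ∀ c ∈ 𝔠i, ∀ z : κ, z ^ m ∈ P.Binf → (c : κ) * z ∈ P.Binf)
    (hofft : ∀ 𝔫 : Ideal P.Bt, 𝔫.IsMaximal → 𝔠t ≤ 𝔫 → ∀ v : Place K F, 0 ≤ v.ord t →
      0 < v.ord y → ∃ f : F, (∀ i, f ∈ W i) ∧ RegOn (K := K) t f ∧ 0 < v.ord f ∧
        ∀ hf : rd f ∈ P.Bt, (⟨rd f, hf⟩ : P.Bt) ∉ 𝔫)
    (hoffi : ∀ 𝔫 : Ideal P.Binf, 𝔫.IsMaximal → 𝔠i ≤ 𝔫 → ∀ v : Place K F, 0 ≤ v.ord t⁻¹ →
      0 < v.ord y → ∃ f : F, (∀ i, f ∈ W i) ∧ RegOn (K := K) t⁻¹ f ∧ 0 < v.ord f ∧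
        ∀ hf : rd f ∈ P.Binf, (⟨rd f, hf⟩ : P.Binf) ∉ 𝔫) :
    ∀ (b : ℕ) (x : F), (∀ i, x ∈ W i) → x ^ m * y ∈ Lfib K t ((m * b : ℕ) : ℤ) →
      rd x ∈ P.T b := by
  intro b x hxW hx
  rcases eq_or_ne x 0 with rfl | hx0
  · rw [h.rd_zero]; exact (P.T b).zero_mem
  obtain ⟨hyW, hy⟩ := rd_eq_one_of_val h hy1
  rcases eq_or_ne y 0 with rfl | hy0
  · -- then `0 = 1` in `κ`
    have h01 : (0 : κ) = 1 := by rw [← h.rd_zero, hy]
    have : rd x = 0 := by rw [← mul_one (rd x), ← h01, mul_zero]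
    rw [this]; exact (P.T b).zero_mem
  have ht0 : t ≠ 0 := by
    rintro rfl
    exact htK (isAlgebraic_zero)
  -- the `m`-th power of `rd x` is a section with pole order `≤ m b`
  have hzW : ∀ i, x ^ m * y ∈ W i := fun i =>
    (W i).mul_mem _ _ ((W i).pow_mem (hxW i) m) (hyW i)
  have hz0 : x ^ m * y ≠ 0 := mul_ne_zero (pow_ne_zero _ hx0) hy0
  have hrdz : rd (x ^ m * y) = rd x ^ m := by
    rw [h.rd_mul _ _ (fun i => (W i).pow_mem (hxW i) m) hyW, rd_pow' h hxW, hy, mul_one]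
  have hzT : rd x ^ m ∈ P.T (m * b) := by
    rw [← hrdz]; exact hT _ _ hzW hx
  have hordz : ∀ v : Place K F, v.ord (x ^ m * y) = m * v.ord x + v.ord y := fun v => by
    rw [v.ord_mul (pow_ne_zero _ hx0) hy0, ord_pow']
  have hx' := (mem_Lfib_iff_ord x₀ htK _ hz0).mp hx
  have hm' : (0 : ℤ) < (m : ℤ) := by exact_mod_cast hm
  refine ⟨?_, ?_⟩
  · -- finite chart
    refine rd_mem_chart_of_offTube x₀ h t P.Bt (rd_mem_Bt_of_regOn x₀ h htK P hT) m 𝔠t hct hxW
      hzT.1 fun 𝔫 h𝔫 hle v hv hxv => hofft 𝔫 h𝔫 hle v hv ?_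
    have h1 := (hx' v).1 hv
    rw [hordz] at h1
    nlinarith
  · -- chart at infinity
    have hx1W : ∀ i, x * t⁻¹ ^ b ∈ W i := fun i =>
      (W i).mul_mem _ _ (hxW i) ((W i).pow_mem (htiW i) b)
    have hrdx1 : rd (x * t⁻¹ ^ b) = rd x * P.sinv ^ b := by
      rw [h.rd_mul _ _ hxW (fun i => (W i).pow_mem (htiW i) b), rd_pow' h htiW,
        rd_inv_eq_sinv h ht0 htW htiW P hs]
    rw [← hrdx1]
    have hpow : rd (x * t⁻¹ ^ b) ^ m ∈ P.Binf := by
      rw [hrdx1, mul_pow, ← pow_mul, mul_comm b m]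
      exact hzT.2
    have hti0 : t⁻¹ ≠ 0 := inv_ne_zero ht0
    have hordx1 : ∀ v : Place K F, v.ord (x * t⁻¹ ^ b) = v.ord x - b * v.ord t := fun v => by
      rw [v.ord_mul hx0 (pow_ne_zero _ hti0), ord_pow', v.ord_inv]
      ring
    refine rd_mem_chart_of_offTube x₀ h t⁻¹ P.Binf
      (rd_mem_Binf_of_regOn x₀ h htK htW P hs hT) m 𝔠i hci hx1W hpow
      fun 𝔫 h𝔫 hle v hv hxv => hoffi 𝔫 h𝔫 hle v hv ?_
    rw [hordx1] at hxv
    rw [v.ord_inv] at hv
    have hvt : v.ord t ≤ 0 := by omega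
    rcases hvt.eq_or_lt with h0 | hneg
    · have h1 := (hx' v).1 (by rw [h0])
      rw [hordz] at h1
      rw [h0] at hxv
      nlinarith
    · have h1 := (hx' v).2 hneg
      rw [hordz] at h1
      push_cast at h1
      nlinarith

end HLam

end Fermat.Agent.GL.HLam
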