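/-
GATE-L HYBRID (helper35): **Claim 2 for a finite family of valuations with the `hLam` input
discharged by the OffTube/conductor criterion.**

`claim2_offTube` = helper33's `Claim2Fam.claim2_core_fam` (`GK/Lattice/Claim2Fam.lean`) with its
last hypothesis `hLam` replaced by the hypotheses of `HLam.hLam_of_offTube`
(`GL/Lattice/HLamOfOffTube.lean`): conductor ideals `𝔠t ⊂ P.Bt`, `𝔠i ⊂ P.Binf` with the
`m`-th-root property, and local equations (off the singular maximal ideals) of every place of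
`div y`'s support.
-/
import Fermat.Agent.GK.Lattice.Claim2Fam
import Fermat.Agent.GL.Lattice.HLamOfOffTube

set_option autoImplicit false

noncomputable section

open AlgebraicCurve IntermediateField Module

namespace Fermat.Agent.GL.HLam

open Fermat.Agent.GJ.J1 Fermat.Agent.GJ.J1.InstGen Fermat.Agent.GJ.FF.PrincipalOf
  Fermat.Agent.RRh45 Fermat.Agent.S24 Fermat.Agent.GK.Core.Twist Fermat.Agent.GK.Lattice

variable {K F : Type*} [Field K] [Field F] [Algebra K F]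
variable {k κ : Type*} [Field k] [CommRing κ] [Algebra k κ]
variable {ι : Type*}
variable {A : ValuationSubring K} {W : ι → ValuationSubring F} {π : A →+* k} {rd : F → κ}

/-- **Claim 2 (family form) with `hLam` from the OffTube criterion.**  `y ≡ 1` at all `W i`,
`m ∣ div y`, `m` invertible in `k`; the reductions of `Lfib K t n ∩ ⋂ W i` land in `P.T n`
(Riemann bound `hdimT`); conductor ideals `𝔠t, 𝔠i` of the two charts with the `m`-th root property;
every place of `Supp (div y)` has, near every singular maximal ideal of its chart, a local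
equation which is regular on the chart and a unit at that maximal ideal.  Then `y = v ^ m`. -/
theorem claim2_offTube [IsAlgClosed K] (x₀ : F) [IsGen K x₀] [Infinite k] [Finite ι] [Nonempty ι]
    (h : ResFam A W π rd) (horth : OrthFam A W)
    (hrank1 : ∀ x c : K, x ∈ A → A.valuation x < 1 → c ≠ 0 →
      ∃ n : ℕ, A.valuation (x ^ n) ≤ A.valuation c)
    {t : F} (htW : ∀ i, t ∈ W i) (htiW : ∀ i, t⁻¹ ∈ W i) (htK : Transcendental K t)
    (P : ChartPair k κ) (hs : P.s = rd t)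
    (hunit : ∀ c : k, IsUnit (P.s - algebraMap k κ c))
    (hTfin : ∀ n, FiniteDimensional k (P.T n))
    (hT : ∀ (n : ℕ) (x : F), (∀ i, x ∈ W i) → x ∈ Lfib K t (n : ℤ) → rd x ∈ P.T n)
    (g' c0 : ℕ)
    (hg' : @genusRR K F _ _ _ (Fermat.Agent.GJ.FF.finiteResidues x₀)
        (hasPrincipalDivisors_gen x₀) (Fermat.Agent.GJ.FF.nonempty_place x₀) ≤ (g' : ℤ))
    (hdimT : ∀ n, c0 ≤ n → finrank k (P.T n) + g' ≤ n * finrank K⟮t⟯ F + 1)
    {m : ℕ} (hm : (m : k) ≠ 0) {y : F} (hy1 : ∀ i, (W i).valuation (y - 1) < 1)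
    (hdvd : ∀ v : Place K F, (m : ℤ) ∣ v.ord y)
    (𝔠t : Ideal P.Bt) (hct : ∀ c ∈ 𝔠t, ∀ z : κ, z ^ m ∈ P.Bt → (c : κ) * z ∈ P.Bt)
    (𝔠i : Ideal P.Binf) (hci : ∀ c ∈ 𝔠i, ∀ z : κ, z ^ m ∈ P.Binf → (c : κ) * z ∈ P.Binf)
    (hofft : ∀ 𝔫 : Ideal P.Bt, 𝔫.IsMaximal → 𝔠t ≤ 𝔫 → ∀ v : Place K F, 0 ≤ v.ord t →
      0 < v.ord y → ∃ f : F, (∀ i, f ∈ W i) ∧ RegOn (K := K) t f ∧ 0 < v.ord f ∧
        ∀ hf : rd f ∈ P.Bt, (⟨rd f, hf⟩ : P.Bt) ∉ 𝔫)
    (hoffi : ∀ 𝔫 : Ideal P.Binf, 𝔫.IsMaximal → 𝔠i ≤ 𝔫 → ∀ v : Place K F, 0 ≤ v.ord t⁻¹ →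
      0 < v.ord y → ∃ f : F, (∀ i, f ∈ W i) ∧ RegOn (K := K) t⁻¹ f ∧ 0 < v.ord f ∧
        ∀ hf : rd f ∈ P.Binf, (⟨rd f, hf⟩ : P.Binf) ∉ 𝔫) :
    ∃ v : F, v ≠ 0 ∧ y = v ^ m := by
  have hm0 : 0 < m := by
    rcases Nat.eq_zero_or_pos m with rfl | h0
    · simp at hm
    · exact h0
  exact Fermat.Agent.GK.Lattice.Claim2Fam.claim2_core_fam x₀ h horth hrank1 htW htK P hs hunit
    hTfin hT g' c0 hg' hdimT hm hy1 hdvd
    (fun b _ => hLam_of_offTube x₀ h htK htW htiW P hs hT hm0 hy1 𝔠t hct 𝔠i hci hofft hoffi b)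

end Fermat.Agent.GL.HLam
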